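/-
Program B' (S34), leaf L3 (helper10): the Kummer–Čech theorem for two charts over a discrete
valuation ring whose special fibre is only assumed REDUCED (it may be reducible, e.g. the two
components of `X₀(qM)` modulo `q`).

This is the direct generalisation of the landed `Fermat.Agent.S18.H86.cech_charts`: the abstract
torsion core `H86.exists_ne_zero_mem_of_cech_field` is already stated for an arbitrary subalgebra
`O ≤ F`; here `O` is ANY subalgebra containing both charts in which the charts are `ϖ`-saturated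
(in the application `O = O₁ ⊓ O₂`, the intersection of the Gauss valuation rings of the
components), and the "Dedekind special fibre + divisor divisible by `m`" input is replaced by one
local datum per maximal ideal `x ∋ ϖ` of a chart: an element `θ` with `f * θ ^ m` a unit at `x`
and `θ ≡ s (mod ϖ O)` for some `s` of the chart that is a unit at `x`.

No Kummer algebra, no idempotents, no roots of unity in `A₀`, no integrality of the special fibre.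
-/
import Fermat.Agent.S18.H86.CechCharts

set_option autoImplicit false

noncomputable section

namespace Fermat.Agent.S34.H10

open Fermat.Agent.S18.H47 Fermat.Agent.S18.H86

section Local

variable {A₀ : Type*} [CommRing A₀] {F : Type*} [Field F] [Algebra A₀ F]

/-- **Local triviality gives an element `≡ 1`.**  If at every maximal ideal `x ∋ ϖ` of `C` the
module `{h | f * h ^ m ∈ C}` contains an element congruent modulo `ϖ O` to an element of `C`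
outside `x`, then it contains an element congruent to `1`. -/
theorem exists_one_mem_of_local (ϖ : A₀) (m : ℕ) (hm : m ≠ 0) (C O : Subalgebra A₀ F)
    (hCO : C ≤ O) (hroot : ∀ z : F, z ^ m ∈ C → z ∈ C) (f : F)
    (hloc : ∀ x : Ideal ↥C, x.IsMaximal → algebraMap A₀ ↥C ϖ ∈ x →
      ∃ θ : F, ∃ s : ↥C, s ∉ x ∧ Dv ϖ O (θ - (s : F)) ∧ f * θ ^ m ∈ C) :
    ∃ β : F, f * β ^ m ∈ C ∧ Dv ϖ O (β - 1) := by
  classical
  let I : Ideal ↥C :=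
    { carrier := {c | ∃ β : F, f * β ^ m ∈ C ∧ Dv ϖ O (β - (c : F))}
      zero_mem' := ⟨0, by
        rw [zero_pow hm, mul_zero]
        exact C.zero_mem, ⟨0, O.zero_mem, by simp⟩⟩
      add_mem' := by
        rintro c c' ⟨β, hβ, hd⟩ ⟨β', hβ', hd'⟩
        refine ⟨β + β', add_pow_mem f m C hroot hβ hβ', ?_⟩
        have e : β + β' - ((c + c' : ↥C) : F) = (β - (c : F)) + (β' - (c' : F)) := by
          push_cast
          ring
        rw [e]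
        exact hd.add hd'
      smul_mem' := by
        rintro c' c ⟨β, hβ, hd⟩
        refine ⟨(c' : F) * β, ?_, ?_⟩
        · have e : f * ((c' : F) * β) ^ m = (c' : F) ^ m * (f * β ^ m) := by ring
          rw [e]
          exact C.mul_mem (C.pow_mem c'.2 m) hβ
        · have e : (c' : F) * β - ((c' • c : ↥C) : F) = (c' : F) * (β - (c : F)) := by
            rw [smul_eq_mul]
            push_cast
            ring
          rw [e]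
          exact hd.mul_left (hCO c'.2) }
  by_cases hI : I = ⊤
  · have h1 : (1 : ↥C) ∈ I := by
      rw [hI]
      trivial
    obtain ⟨β, hβ, hd⟩ := h1
    exact ⟨β, hβ, hd⟩
  · exfalso
    obtain ⟨x, hxmax, hIx⟩ := Ideal.exists_le_maximal I hI
    have hπI : algebraMap A₀ ↥C ϖ ∈ I := by
      refine ⟨0, ?_, ⟨-1, O.neg_mem O.one_mem, ?_⟩⟩
      · rw [zero_pow hm, mul_zero]
        exact C.zero_mem
      · rw [Algebra.smul_def, mul_neg, mul_one, zero_sub]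
        rfl
    obtain ⟨θ, s, hsx, hθs, hθC⟩ := hloc x hxmax (hIx hπI)
    exact hsx (hIx ⟨θ, hθC, hθs⟩)

/-- **The reduction of `{h | f * h ^ m ∈ C}` lies in the reduction of `C`**, from the local
data: at every maximal ideal `x ∋ ϖ` there is `θ` with `f * θ ^ m ∈ C ∖ x` and `θ ≡ s (mod ϖ O)`,
`s ∈ C`. -/
theorem exists_approx_of_local (ϖ : A₀) (m : ℕ) (hm : m ≠ 0) (C O : Subalgebra A₀ F)
    (hCO : C ≤ O) (hroot : ∀ z : F, z ^ m ∈ C → z ∈ C) (f : F)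
    (hMO : ∀ h : F, f * h ^ m ∈ C → h ∈ O)
    (hloc : ∀ x : Ideal ↥C, x.IsMaximal → algebraMap A₀ ↥C ϖ ∈ x →
      ∃ θ : F, ∃ s : ↥C, Dv ϖ O (θ - (s : F)) ∧ ∃ h : f * θ ^ m ∈ C, (⟨_, h⟩ : ↥C) ∉ x)
    {β : F} (hβ : f * β ^ m ∈ C) : ∃ α ∈ C, Dv ϖ O (β - α) := by
  classical
  have hβO : β ∈ O := hMO β hβ
  let J : Ideal ↥C :=
    { carrier := {c | ∃ α ∈ C, Dv ϖ O ((c : F) * β - α)}
      zero_mem' := ⟨0, C.zero_mem, ⟨0, O.zero_mem, by simp⟩⟩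
      add_mem' := by
        rintro c c' ⟨α, hα, hd⟩ ⟨α', hα', hd'⟩
        refine ⟨α + α', C.add_mem hα hα', ?_⟩
        have e : ((c + c' : ↥C) : F) * β - (α + α') = ((c : F) * β - α) + ((c' : F) * β - α') := by
          push_cast
          ring
        rw [e]
        exact hd.add hd'
      smul_mem' := by
        rintro c' c ⟨α, hα, hd⟩
        refine ⟨(c' : F) * α, C.mul_mem c'.2 hα, ?_⟩
        have e : ((c' • c : ↥C) : F) * β - (c' : F) * α = (c' : F) * ((c : F) * β - α) := by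
          rw [smul_eq_mul]
          push_cast
          ring
        rw [e]
        exact hd.mul_left (hCO c'.2) }
  by_cases hJ : J = ⊤
  · have h1 : (1 : ↥C) ∈ J := by
      rw [hJ]
      trivial
    obtain ⟨α, hα, hd⟩ := h1
    refine ⟨α, hα, ?_⟩
    have e : ((1 : ↥C) : F) * β - α = β - α := by
      push_cast
      ring
    rwa [e] at hd
  · exfalso
    obtain ⟨x, hxmax, hJx⟩ := Ideal.exists_le_maximal J hJ
    have hπJ : algebraMap A₀ ↥C ϖ ∈ J := by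
      refine ⟨0, C.zero_mem, ⟨β, hβO, ?_⟩⟩
      rw [sub_zero, Algebra.smul_def]
      rfl
    obtain ⟨θ, s, hθs, hθC, hux⟩ := hloc x hxmax (hJx hπJ)
    -- `u := f θ ^ m ∈ C ∖ x`, `z := u β / θ ∈ C`, and `u β = z θ ≡ z s`
    set u : F := f * θ ^ m with hu
    have hu0 : u ≠ 0 := by
      intro h0
      apply hux
      have : (⟨f * θ ^ m, hθC⟩ : ↥C) = 0 := Subtype.ext h0
      rw [this]
      exact x.zero_mem
    have hθ0 : θ ≠ 0 := by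
      rintro rfl
      apply hu0
      rw [hu, zero_pow hm, mul_zero]
    obtain ⟨k, rfl⟩ := Nat.exists_eq_add_one_of_ne_zero hm
    have hzC : u * β * θ⁻¹ ∈ C := by
      apply hroot
      have e : (u * β * θ⁻¹) ^ (k + 1) = u ^ k * (f * β ^ (k + 1)) := by
        have h1 : θ ^ (k + 1) * (θ⁻¹) ^ (k + 1) = 1 := by
          rw [← mul_pow, mul_inv_cancel₀ hθ0, one_pow]
        calc (u * β * θ⁻¹) ^ (k + 1)
            = u ^ k * (f * β ^ (k + 1)) * (θ ^ (k + 1) * (θ⁻¹) ^ (k + 1)) := by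
              rw [hu]
              ring
          _ = u ^ k * (f * β ^ (k + 1)) := by rw [h1, mul_one]
      rw [e]
      exact C.mul_mem (C.pow_mem hθC k) hβ
    have huJ : (⟨u, hθC⟩ : ↥C) ∈ J := by
      refine ⟨u * β * θ⁻¹ * (s : F), C.mul_mem hzC s.2, ?_⟩
      have e : ((⟨u, hθC⟩ : ↥C) : F) * β - u * β * θ⁻¹ * (s : F)
          = (u * β * θ⁻¹) * (θ - (s : F)) := by
        show u * β - u * β * θ⁻¹ * (s : F) = (u * β * θ⁻¹) * (θ - (s : F))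
        have h1 : u * β * θ⁻¹ * θ = u * β := by
          rw [mul_assoc, inv_mul_cancel₀ hθ0, mul_one]
        rw [mul_sub, h1]
      rw [e]
      exact hθs.mul_left (hCO hzC)
    exact hux (hJx huJ)

end Local

section Main

/-- **L3: the Kummer–Čech theorem over a reduced special fibre.**  Two integrally closed charts
`C₁ ∋ j`, `C₂ ∋ j⁻¹` over a discrete valuation ring `A₀`, glued along `j`, `C₁` finite over
`A₀[j]`; `O` a subalgebra containing both (the semi-local ring of the generic points of the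
special fibre) in which both charts are `ϖ`-saturated, `j` a unit of `O`, `O` closed under `m`-th
roots; the reductions of the charts only meet in the constants (`hconst`); `f` a unit of `O`
congruent to `1` modulo `ϖ O` such that at every maximal ideal `x ∋ ϖ` of either chart there is
`θ` with `f * θ ^ m` a unit at `x` and `θ ≡ s (mod ϖ O)`, `s` a unit at `x` (`hloc₁`, `hloc₂`);
`m` a unit of `A₀`.  Then `f * h ^ m` is a global function for some `h ≠ 0`. -/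
theorem cech_charts_semilocal
    {A₀ : Type*} [CommRing A₀] [IsDomain A₀] [IsDiscreteValuationRing A₀]
    {F : Type*} [Field F] [Algebra A₀ F] [FaithfulSMul A₀ F]
    (ϖ : A₀) (hϖ : Irreducible ϖ) (m : ℕ) (hm : IsUnit (m : A₀)) (j : F) (hj0 : j ≠ 0)
    (C₁ C₂ : Subalgebra A₀ F) [IsIntegrallyClosed ↥C₁] [IsIntegrallyClosed ↥C₂]
    (hj₁ : j ∈ C₁) (hj₂ : j⁻¹ ∈ C₂)
    (hfin₁ : ∃ s : Finset F, (C₁ : Set F) =
      Submodule.span (Algebra.adjoin A₀ ({j} : Set F)) (s : Set F))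
    (hfrac : ∀ x : F, ∃ a ∈ C₁, ∃ b ∈ C₁, b ≠ 0 ∧ x = a / b)
    (hglue : ∀ x : F, (∃ n : ℕ, j ^ n * x ∈ C₁) ↔ (∃ n : ℕ, j⁻¹ ^ n * x ∈ C₂))
    (O : Subalgebra A₀ F) (hC₁O : C₁ ≤ O) (hC₂O : C₂ ≤ O) (hjO : j⁻¹ ∈ O)
    (hnu : ¬ Dv ϖ O 1) (hrootO : ∀ z : F, z ^ m ∈ O → z ∈ O)
    (hsat₁ : ∀ x ∈ O, ϖ • x ∈ C₁ → x ∈ C₁) (hsat₂ : ∀ x ∈ O, ϖ • x ∈ C₂ → x ∈ C₂)
    (hconst : ∀ c₁ ∈ C₁, ∀ c₂ ∈ C₂, Dv ϖ O (c₁ - c₂) →
      ∃ a : A₀, Dv ϖ O (c₁ - algebraMap A₀ F a))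
    (f : F) (hf0 : f ≠ 0) (hfO : f ∈ O) (hfinv : f⁻¹ ∈ O) (hf1 : Dv ϖ O (f - 1))
    (hloc₁ : ∀ x : Ideal ↥C₁, x.IsMaximal → algebraMap A₀ ↥C₁ ϖ ∈ x →
      ∃ θ : F, ∃ s : ↥C₁, s ∉ x ∧ Dv ϖ O (θ - (s : F)) ∧
        ∃ h : f * θ ^ m ∈ C₁, (⟨_, h⟩ : ↥C₁) ∉ x)
    (hloc₂ : ∀ x : Ideal ↥C₂, x.IsMaximal → algebraMap A₀ ↥C₂ ϖ ∈ x →
      ∃ θ : F, ∃ s : ↥C₂, s ∉ x ∧ Dv ϖ O (θ - (s : F)) ∧
        ∃ h : f * θ ^ m ∈ C₂, (⟨_, h⟩ : ↥C₂) ∉ x) :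
    ∃ h : F, h ≠ 0 ∧ f * h ^ m ∈ C₁ ∧ f * h ^ m ∈ C₂ := by
  classical
  have hm0 : m ≠ 0 := by
    rintro rfl
    rw [Nat.cast_zero] at hm
    exact not_isUnit_zero hm
  have hlocA : ∀ a : A₀, IsUnit a ∨ ϖ ∣ a := by
    intro a
    by_cases ha : IsUnit a
    · exact Or.inl ha
    · right
      have h1 : a ∈ IsLocalRing.maximalIdeal A₀ := (IsLocalRing.mem_maximalIdeal a).mpr ha
      rw [hϖ.maximalIdeal_eq] at h1
      exact Ideal.mem_span_singleton.mp h1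
  have hji0 : j⁻¹ ≠ 0 := inv_ne_zero hj0
  have h12 : ∀ x ∈ C₁, ∃ n : ℕ, j⁻¹ ^ n * x ∈ C₂ := fun x hx =>
    (hglue x).mp ⟨0, by rw [pow_zero, one_mul]; exact hx⟩
  have h21 : ∀ x ∈ C₂, ∃ n : ℕ, j ^ n * x ∈ C₁ := fun x hx =>
    (hglue x).mpr ⟨0, by rw [pow_zero, one_mul]; exact hx⟩
  -- fractions of `C₂`
  have hfrac₂ : ∀ x : F, ∃ a ∈ C₂, ∃ b ∈ C₂, b ≠ 0 ∧ x = a / b := by
    intro x
    obtain ⟨a, ha, b, hb, hb0, rfl⟩ := hfrac x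
    obtain ⟨n₁, hn₁⟩ := h12 a ha
    obtain ⟨n₂, hn₂⟩ := h12 b hb
    refine ⟨j⁻¹ ^ (n₁ + n₂) * a, ?_, j⁻¹ ^ (n₁ + n₂) * b, ?_, ?_, ?_⟩
    · rw [pow_add, mul_comm (j⁻¹ ^ n₁), mul_assoc]
      exact C₂.mul_mem (C₂.pow_mem hj₂ _) hn₁
    · rw [pow_add, mul_assoc]
      exact C₂.mul_mem (C₂.pow_mem hj₂ _) hn₂
    · exact mul_ne_zero (pow_ne_zero _ hji0) hb0
    · rw [mul_div_mul_left _ _ (pow_ne_zero _ hji0)]
  -- root closedness
  have hroot₁ : ∀ z : F, z ^ m ∈ C₁ → z ∈ C₁ := fun z hz => mem_of_pow_mem C₁ hfrac hm0 hz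
  have hroot₂ : ∀ z : F, z ^ m ∈ C₂ → z ∈ C₂ := fun z hz => mem_of_pow_mem C₂ hfrac₂ hm0 hz
  have hroot₁₂ : ∀ z : F, z ^ m ∈ glueAlg j C₁ hj₁ → z ∈ glueAlg j C₁ hj₁ := by
    rintro z ⟨n, hn⟩
    refine ⟨n, hroot₁ _ ?_⟩
    obtain ⟨k, rfl⟩ := Nat.exists_eq_add_one_of_ne_zero hm0
    have e : (j ^ n * z) ^ (k + 1) = (j ^ n) ^ k * (j ^ n * z ^ (k + 1)) := by ring
    rw [e]
    exact C₁.mul_mem (C₁.pow_mem (C₁.pow_mem hj₁ _) _) hn
  have hC₁le : C₁ ≤ glueAlg j C₁ hj₁ := fun y hy => ⟨0, by rw [pow_zero, one_mul]; exact hy⟩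
  have hC₂le : C₂ ≤ glueAlg j C₁ hj₁ := fun y hy => h21 y hy
  have hjOn : ∀ n : ℕ, j ^ n ∈ O := fun n => O.pow_mem (hC₁O hj₁) n
  have hC₁₂O : glueAlg j C₁ hj₁ ≤ O := by
    rintro y ⟨n, hn⟩
    have e : y = j⁻¹ ^ n * (j ^ n * y) := by
      rw [← mul_assoc, ← mul_pow, inv_mul_cancel₀ hj0, one_pow, one_mul]
    rw [e]
    exact O.mul_mem (O.pow_mem hjO n) (hC₁O hn)
  -- the modules
  have hM₁le : powSub f m C₁ hroot₁ hm0 ≤ powSub f m (glueAlg j C₁ hj₁) hroot₁₂ hm0 :=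
    fun x hx => hC₁le hx
  have hM₂le : powSub f m C₂ hroot₂ hm0 ≤ powSub f m (glueAlg j C₁ hj₁) hroot₁₂ hm0 :=
    fun x hx => hC₂le hx
  have hMO : ∀ x ∈ powSub f m (glueAlg j C₁ hj₁) hroot₁₂ hm0, x ∈ O := fun x hx =>
    mem_loc_of_mul_pow_mem hrootO hC₁₂O hf0 hfinv hx
  have hCM : ∀ (C : Subalgebra A₀ F) (hroot : ∀ z : F, z ^ m ∈ C → z ∈ C),
      ∀ c ∈ C, ∀ x ∈ powSub f m C hroot hm0, c * x ∈ powSub f m C hroot hm0 := by
    intro C hroot c hc x hx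
    show f * (c * x) ^ m ∈ C
    have e : f * (c * x) ^ m = c ^ m * (f * x ^ m) := by ring
    rw [e]
    exact C.mul_mem (C.pow_mem hc m) hx
  -- saturation
  have satC₁₂ : ∀ x ∈ O, ϖ • x ∈ glueAlg j C₁ hj₁ → x ∈ glueAlg j C₁ hj₁ := by
    rintro x hx ⟨n, hn⟩
    refine ⟨n, hsat₁ _ (O.mul_mem (hjOn n) hx) ?_⟩
    rw [mul_smul_comm] at hn
    exact hn
  have satM : ∀ (C : Subalgebra A₀ F) (hroot : ∀ z : F, z ^ m ∈ C → z ∈ C),
      (∀ x ∈ O, ϖ • x ∈ C → x ∈ C) →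
      ∀ x ∈ O, ϖ • x ∈ powSub f m C hroot hm0 → x ∈ powSub f m C hroot hm0 := by
    intro C hroot hsat x hx h
    have h' : ϖ ^ m • (f * x ^ m) ∈ C := by
      have e : f * (ϖ • x) ^ m = ϖ ^ m • (f * x ^ m) := by
        rw [_root_.smul_pow, mul_smul_comm]
      rw [← e]
      exact h
    exact sat_pow hsat m _ (O.mul_mem hfO (O.pow_mem hx m)) h'
  -- constants
  have constC : ∀ c₁ ∈ C₁, ∀ c₂ ∈ C₂, c₁ ∈ O → c₂ ∈ O → Dv ϖ O (c₁ - c₂) →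
      ∃ a : A₀, Dv ϖ O (c₁ - algebraMap A₀ F a) :=
    fun c₁ hc₁ c₂ hc₂ _ _ hd => hconst c₁ hc₁ c₂ hc₂ hd
  have hloc₁' : ∀ x : Ideal ↥C₁, x.IsMaximal → algebraMap A₀ ↥C₁ ϖ ∈ x →
      ∃ θ : F, ∃ s : ↥C₁, Dv ϖ O (θ - (s : F)) ∧ ∃ h : f * θ ^ m ∈ C₁, (⟨_, h⟩ : ↥C₁) ∉ x := by
    intro x hx hπ
    obtain ⟨θ, s, _, hθs, h⟩ := hloc₁ x hx hπ
    exact ⟨θ, s, hθs, h⟩
  have hloc₂' : ∀ x : Ideal ↥C₂, x.IsMaximal → algebraMap A₀ ↥C₂ ϖ ∈ x →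
      ∃ θ : F, ∃ s : ↥C₂, Dv ϖ O (θ - (s : F)) ∧ ∃ h : f * θ ^ m ∈ C₂, (⟨_, h⟩ : ↥C₂) ∉ x := by
    intro x hx hπ
    obtain ⟨θ, s, _, hθs, h⟩ := hloc₂ x hx hπ
    exact ⟨θ, s, hθs, h⟩
  have constM : ∀ b₁ ∈ powSub f m C₁ hroot₁ hm0, ∀ b₂ ∈ powSub f m C₂ hroot₂ hm0,
      Dv ϖ O (b₁ - b₂) → ∃ a : A₀, Dv ϖ O (b₁ - algebraMap A₀ F a) := by
    intro b₁ hb₁ b₂ hb₂ hd
    obtain ⟨α₁, hα₁, hd₁⟩ := exists_approx_of_local ϖ m hm0 C₁ O hC₁O hroot₁ f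
      (fun h hh => hMO h (hM₁le hh)) hloc₁' hb₁
    obtain ⟨α₂, hα₂, hd₂⟩ := exists_approx_of_local ϖ m hm0 C₂ O hC₂O hroot₂ f
      (fun h hh => hMO h (hM₂le hh)) hloc₂' hb₂
    have hd12 : Dv ϖ O (α₁ - α₂) := by
      have h := (hd.sub hd₁).add hd₂
      have e : b₁ - b₂ - (b₁ - α₁) + (b₂ - α₂) = α₁ - α₂ := by ring
      rwa [e] at h
    obtain ⟨a, ha⟩ := hconst α₁ hα₁ α₂ hα₂ hd12
    refine ⟨a, ?_⟩
    have h := hd₁.add ha
    have e : b₁ - α₁ + (α₁ - algebraMap A₀ F a) = b₁ - algebraMap A₀ F a := by ring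
    rwa [e] at h
  -- the elements congruent to `1`
  obtain ⟨β₁, hβ₁, hβ₁1⟩ := exists_one_mem_of_local ϖ m hm0 C₁ O hC₁O hroot₁ f (by
    intro x hx hπ
    obtain ⟨θ, s, hs, hθs, h, _⟩ := hloc₁ x hx hπ
    exact ⟨θ, s, hs, hθs, h⟩)
  obtain ⟨β₂, hβ₂, hβ₂1⟩ := exists_one_mem_of_local ϖ m hm0 C₂ O hC₂O hroot₂ f (by
    intro x hx hπ
    obtain ⟨θ, s, hs, hθs, h, _⟩ := hloc₂ x hx hπ
    exact ⟨θ, s, hs, hθs, h⟩)
  -- bounded torsion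
  obtain ⟨a₀, ha₀, b₀, hb₀, hb₀0, hfab⟩ := hfrac f
  have hfab' : f * b₀ = a₀ := by
    rw [hfab, div_mul_cancel₀ _ hb₀0]
  have ha₀0 : a₀ ≠ 0 := by
    rw [← hfab']
    exact mul_ne_zero hf0 hb₀0
  have haN : ∀ x ∈ powSub f m C₁ hroot₁ hm0, a₀ * x ∈ C₁ := by
    intro x hx
    apply hroot₁
    obtain ⟨k, rfl⟩ := Nat.exists_eq_add_one_of_ne_zero hm0
    have e : (a₀ * x) ^ (k + 1) = a₀ ^ k * b₀ * (f * x ^ (k + 1)) := by
      rw [← hfab']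
      ring
    rw [e]
    exact C₁.mul_mem (C₁.mul_mem (C₁.pow_mem ha₀ k) hb₀) hx
  obtain ⟨T, hTN, hTspan⟩ := exists_finset_span_pow j C₁ hj₁ hfin₁ (powSub f m C₁ hroot₁ hm0)
    (hCM C₁ hroot₁) a₀ ha₀0 haN
  have hbdd := exists_bdd_of_two_chart ϖ j hj0 (powSub f m C₁ hroot₁ hm0)
    (powSub f m C₂ hroot₂ hm0) (powSub f m (glueAlg j C₁ hj₁) hroot₁₂ hm0) T hTspan
    (fun μ hμ s => hCM C₁ hroot₁ _ (C₁.pow_mem hj₁ s) μ (hTN μ hμ))
    (by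
      intro μ hμ
      obtain ⟨n₀, hn₀⟩ := h12 _ (hTN μ hμ)
      refine ⟨n₀, fun t ht => ?_⟩
      show f * (j⁻¹ ^ t * μ) ^ m ∈ C₂
      obtain ⟨k, rfl⟩ := Nat.exists_eq_add_one_of_ne_zero hm0
      obtain ⟨l, rfl⟩ := Nat.exists_eq_add_of_le ht
      have e : f * (j⁻¹ ^ (n₀ + l) * μ) ^ (k + 1)
          = j⁻¹ ^ (l + (n₀ + l) * k) * (j⁻¹ ^ n₀ * (f * μ ^ (k + 1))) := by ring
      rw [e]
      exact C₂.mul_mem (C₂.pow_mem hj₂ _) hn₀)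
    (by
      rintro y ⟨n, hn⟩
      refine ⟨n, ?_⟩
      show f * (j ^ n * y) ^ m ∈ C₁
      obtain ⟨k, rfl⟩ := Nat.exists_eq_add_one_of_ne_zero hm0
      have e : f * (j ^ n * y) ^ (k + 1) = (j ^ n) ^ k * (j ^ n * (f * y ^ (k + 1))) := by ring
      rw [e]
      exact C₁.mul_mem (C₁.pow_mem (C₁.pow_mem hj₁ _) _) hn)
  -- the core
  obtain ⟨h, hh0, hh1, hh2⟩ := exists_ne_zero_mem_of_cech_field ϖ O hnu hlocA m hm C₁ C₂
    (glueAlg j C₁ hj₁) (powSub f m C₁ hroot₁ hm0) (powSub f m C₂ hroot₂ hm0)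
    (powSub f m (glueAlg j C₁ hj₁) hroot₁₂ hm0) hM₁le hM₂le hMO (hCM C₁ hroot₁) (hCM C₂ hroot₂)
    hsat₁ hsat₂ (satM C₁ hroot₁ hsat₁) (satM C₂ hroot₂ hsat₂)
    (satM (glueAlg j C₁ hj₁) hroot₁₂ satC₁₂) constC constM f hfO hf1
    (fun x hx => hx) (fun x hx => hx)
    (fun y hy x₁ hx₁ x₂ hx₂ i j' hij =>
      mul_mul_pow_mem f m (glueAlg j C₁ hj₁) hroot₁₂ hy (hM₁le hx₁) (hM₂le hx₂) hij)
    β₁ β₂ hβ₁ hβ₂ hβ₁1 hβ₂1 hbdd
  exact ⟨h, hh0, hh1, hh2⟩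

end Main

end Fermat.Agent.S34.H10
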