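/-
Program B' (S34), Step 2 of the chain (helper10): "the inertia element `τ` is trivial on the
Cartier classes", in abstract form, as a corollary of `cech_charts_semilocal` (leaf L3).

Setting: two charts `C₁ ∋ j`, `C₂ ∋ j⁻¹` over a discrete valuation ring `A₀` with reduced special
fibre, `O` the semi-local ring of the generic points of the special fibre (`O = O₁ ⊓ O₂`), and a
ring automorphism `τ` of `F` preserving `C₁`, `C₂`, `O` and acting trivially on `O / ϖ O`.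
If `u ∈ Fˣ` is, at every maximal ideal `x ∋ ϖ` of either chart, a unit at `x` times an `m`-th
power (the Cartier condition), and `u / g₀ ^ m` is a unit of `O` for one `g₀`, then
`τ u / u * h ^ m` is a global function for some `h ≠ 0`.
-/
import Fermat.Agent.S34.H10.CechSemi

set_option autoImplicit false

noncomputable section

namespace Fermat.Agent.S34.H10

open Fermat.Agent.S18.H47 Fermat.Agent.S18.H86

section LocalDatum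

variable {A₀ : Type*} [CommRing A₀] {F : Type*} [Field F] [Algebra A₀ F]

/-- `τ` fixes the residue of every element of `C` modulo a prime containing `ϖ`. -/
theorem map_not_mem_of_not_mem (ϖ : A₀) (C O : Subalgebra A₀ F) (hCO : C ≤ O)
    (hsat : ∀ x ∈ O, ϖ • x ∈ C → x ∈ C)
    (τ : F ≃+* F) (hτC : ∀ c ∈ C, τ c ∈ C) (hτ1 : ∀ y ∈ O, Dv ϖ O (τ y - y))
    (x : Ideal ↥C) (hπx : algebraMap A₀ ↥C ϖ ∈ x) (c : ↥C) (hc : c ∉ x) :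
    (⟨τ (c : F), hτC c c.2⟩ : ↥C) ∉ x := by
  intro h
  apply hc
  obtain ⟨d, hdO, hd⟩ := hτ1 (c : F) (hCO c.2)
  have hdC : d ∈ C := hsat d hdO (by
    rw [← hd]
    exact C.sub_mem (hτC c c.2) c.2)
  have e : c = (⟨τ (c : F), hτC c c.2⟩ : ↥C) - algebraMap A₀ ↥C ϖ * ⟨d, hdC⟩ := by
    apply Subtype.ext
    have h1 : ((algebraMap A₀ ↥C ϖ * (⟨d, hdC⟩ : ↥C) : ↥C) : F) = ϖ • d := by
      rw [Algebra.smul_def]
      rfl
    have h2 : (((⟨τ (c : F), hτC c c.2⟩ : ↥C) - algebraMap A₀ ↥C ϖ * ⟨d, hdC⟩ : ↥C) : F)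
        = τ (c : F) - ϖ • d := by
      rw [← h1]
      rfl
    rw [h2, ← hd]
    ring
  rw [e]
  exact x.sub_mem h (x.mul_mem_right _ hπx)

/-- **The local datum of L3 from the Cartier condition.**  If `ε₀ g₀ ^ m = (a / b) g ^ m` with
`a, b ∈ C` outside the prime `x ∋ ϖ` and `ε₀` a unit of `O`, then the module
`{h | (τ ε₀ / ε₀) * h ^ m ∈ C}` has an element `θ ≡ s (mod ϖ O)`, `s ∈ C ∖ x`, with
`(τ ε₀ / ε₀) * θ ^ m ∈ C ∖ x`. -/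
theorem local_datum_of_cartier (ϖ : A₀) (m : ℕ) (hm : m ≠ 0) (C O : Subalgebra A₀ F)
    (hCO : C ≤ O) (hrootO : ∀ z : F, z ^ m ∈ O → z ∈ O) (hsat : ∀ x ∈ O, ϖ • x ∈ C → x ∈ C)
    (τ : F ≃+* F) (hτC : ∀ c ∈ C, τ c ∈ C) (hτ1 : ∀ y ∈ O, Dv ϖ O (τ y - y))
    (ε₀ : F) (hε₀0 : ε₀ ≠ 0) (hε₀ : ε₀ ∈ O) (hε₀' : ε₀⁻¹ ∈ O) (g₀ : F) (hg₀ : g₀ ≠ 0)
    (x : Ideal ↥C) (hx : x.IsPrime) (hπx : algebraMap A₀ ↥C ϖ ∈ x)
    (g : F) (hg : g ≠ 0) (a b : ↥C) (ha : a ∉ x) (hb : b ∉ x)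
    (hab : ε₀ * g₀ ^ m * (b : F) = (a : F) * g ^ m) :
    ∃ θ : F, ∃ s : ↥C, s ∉ x ∧ Dv ϖ O (θ - (s : F)) ∧
      ∃ h : τ ε₀ / ε₀ * θ ^ m ∈ C, (⟨_, h⟩ : ↥C) ∉ x := by
  obtain ⟨k, rfl⟩ := Nat.exists_eq_add_one_of_ne_zero hm
  have ha0 : (a : F) ≠ 0 := by
    intro h0
    apply ha
    have : a = 0 := Subtype.ext h0
    rw [this]
    exact x.zero_mem
  have hb0 : (b : F) ≠ 0 := by
    intro h0
    apply hb
    have : b = 0 := Subtype.ext h0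
    rw [this]
    exact x.zero_mem
  have hτε₀ : τ ε₀ ≠ 0 := (map_ne_zero τ).2 hε₀0
  have hτb0 : τ (b : F) ≠ 0 := (map_ne_zero τ).2 hb0
  have hτa0 : τ (a : F) ≠ 0 := (map_ne_zero τ).2 ha0
  set r : F := g₀ / g with hr
  have hr0 : r ≠ 0 := div_ne_zero hg₀ hg
  have hτr0 : τ r ≠ 0 := (map_ne_zero τ).2 hr0
  -- `a = ε₀ r ^ m b`
  have ha' : (a : F) = ε₀ * r ^ (k + 1) * (b : F) := by
    rw [hr, div_pow]
    field_simp
    linear_combination -hab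
  have hr_pow : r ^ (k + 1) = (a : F) / (ε₀ * (b : F)) := by
    rw [ha']
    field_simp
  have hτr_pow : (τ r) ^ (k + 1) = τ (a : F) / (τ ε₀ * τ (b : F)) := by
    rw [← map_pow, hr_pow, map_div₀, map_mul]
  -- `r' := b r ∈ O`
  have hr'O : (b : F) * r ∈ O := by
    apply hrootO
    have e : ((b : F) * r) ^ (k + 1) = (b : F) ^ k * (a : F) * ε₀⁻¹ := by
      rw [mul_pow, hr_pow]
      field_simp
      ring
    rw [e]
    exact O.mul_mem (O.mul_mem (O.pow_mem (hCO b.2) k) (hCO a.2)) hε₀'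
  have hτb : (⟨τ (b : F), hτC b b.2⟩ : ↥C) ∉ x :=
    map_not_mem_of_not_mem ϖ C O hCO hsat τ hτC hτ1 x hπx b hb
  have hτa : (⟨τ (a : F), hτC a a.2⟩ : ↥C) ∉ x :=
    map_not_mem_of_not_mem ϖ C O hCO hsat τ hτC hτ1 x hπx a ha
  -- the element `s`
  set s : ↥C := a * ⟨τ (b : F), hτC b b.2⟩ * b ^ k with hs
  have hsx : s ∉ x := by
    intro h
    rcases hx.mem_or_mem h with h1 | h1
    · rcases hx.mem_or_mem h1 with h2 | h2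
      · exact ha h2
      · exact hτb h2
    · exact hb (hx.mem_of_pow_mem _ h1)
  have hsF : (s : F) = (a : F) * τ (b : F) * (b : F) ^ k := by
    rw [hs]
    push_cast
    rfl
  refine ⟨(s : F) * (τ r / r), s, hsx, ?_, ?_⟩
  · -- the congruence
    have e : (s : F) * (τ r / r) - (s : F)
        = (((b : F) * r) ^ k * ε₀) *
          ((τ ((b : F) * r) - (b : F) * r) * (b : F) - ((b : F) * r) * (τ (b : F) - (b : F))) := by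
      rw [hsF, ha', map_mul]
      field_simp
      ring
    rw [e]
    have h1 : Dv ϖ O ((τ ((b : F) * r) - (b : F) * r) * (b : F)) :=
      (hτ1 _ hr'O).mul_right (hCO b.2)
    have h2 : Dv ϖ O (((b : F) * r) * (τ (b : F) - (b : F))) :=
      (hτ1 _ (hCO b.2)).mul_left hr'O
    exact (h1.sub h2).mul_left (O.mul_mem (O.pow_mem hr'O k) hε₀)
  · -- the unit
    have e : τ ε₀ / ε₀ * ((s : F) * (τ r / r)) ^ (k + 1)
        = (s : F) ^ k * (b : F) ^ (k + 1) * τ (a : F) := by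
      rw [mul_pow, div_pow, hτr_pow, hr_pow, pow_succ (s : F) k]
      rw [hsF]
      field_simp
      ring
    have hmem : τ ε₀ / ε₀ * ((s : F) * (τ r / r)) ^ (k + 1) ∈ C := by
      rw [e]
      exact C.mul_mem (C.mul_mem (C.pow_mem s.2 k) (C.pow_mem b.2 (k + 1))) (hτC a a.2)
    refine ⟨hmem, ?_⟩
    have e' : (⟨_, hmem⟩ : ↥C) = s ^ k * b ^ (k + 1) * ⟨τ (a : F), hτC a a.2⟩ := by
      apply Subtype.ext
      show τ ε₀ / ε₀ * ((s : F) * (τ r / r)) ^ (k + 1) = _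
      rw [e]
      push_cast
      rfl
    rw [e']
    intro h
    rcases hx.mem_or_mem h with h1 | h1
    · rcases hx.mem_or_mem h1 with h2 | h2
      · exact hsx (hx.mem_of_pow_mem _ h2)
      · exact hb (hx.mem_of_pow_mem _ h2)
    · exact hτa h1

end LocalDatum

section Main

/-- **Step 2, abstract form.**  Charts and `O` as in `cech_charts_semilocal`; `τ` a ring
automorphism of `F` preserving `C₁`, `C₂`, `O` and trivial on `O / ϖ O`; `u ≠ 0` satisfying the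
Cartier condition at every maximal ideal `x ∋ ϖ` of both charts (`u = (a / b) g ^ m` with
`a, b ∉ x`), and `u / g₀ ^ m` a unit of `O`.  Then `τ u / u * h ^ m` is a global function for some
`h ≠ 0`. -/
theorem exists_pow_mul_mem_of_cartier
    {A₀ : Type*} [CommRing A₀] [IsDomain A₀] [IsDiscreteValuationRing A₀]
    {F : Type*} [Field F] [Algebra A₀ F] [FaithfulSMul A₀ F]
    (ϖ : A₀) (hϖ : Irreducible ϖ) (m : ℕ) (hm : IsUnit (m : A₀)) (j : F) (hj0 : j ≠ 0)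
    (C₁ C₂ : Subalgebra A₀ F) [IsIntegrallyClosed ↥C₁] [IsIntegrallyClosed ↥C₂]
    (hj₁ : j ∈ C₁) (hj₂ : j⁻¹ ∈ C₂)
    (hfin₁ : ∃ s : Finset F, (C₁ : Set F) =
      Submodule.span (Algebra.adjoin A₀ ({j} : Set F)) (s : Set F))
    (hfrac : ∀ x : F, ∃ a ∈ C₁, ∃ b ∈ C₁, b ≠ 0 ∧ x = a / b)
    (hglue : ∀ x : F, (∃ n : ℕ, j ^ n * x ∈ C₁) ↔ (∃ n : ℕ, j⁻¹ ^ n * x ∈ C₂))
    (O : Subalgebra A₀ F) (hC₁O : C₁ ≤ O) (hC₂O : C₂ ≤ O) (hjO : j⁻¹ ∈ O)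
    (hnu : ¬ Dv ϖ O 1) (hrootO : ∀ z : F, z ^ m ∈ O → z ∈ O)
    (hsat₁ : ∀ x ∈ O, ϖ • x ∈ C₁ → x ∈ C₁) (hsat₂ : ∀ x ∈ O, ϖ • x ∈ C₂ → x ∈ C₂)
    (hconst : ∀ c₁ ∈ C₁, ∀ c₂ ∈ C₂, Dv ϖ O (c₁ - c₂) →
      ∃ a : A₀, Dv ϖ O (c₁ - algebraMap A₀ F a))
    (τ : F ≃+* F) (hτC₁ : ∀ c ∈ C₁, τ c ∈ C₁) (hτC₂ : ∀ c ∈ C₂, τ c ∈ C₂)
    (hτO : ∀ y ∈ O, τ y ∈ O) (hτ1 : ∀ y ∈ O, Dv ϖ O (τ y - y))
    (u g₀ : F) (hu0 : u ≠ 0) (hg₀ : g₀ ≠ 0) (hε₀ : u / g₀ ^ m ∈ O) (hε₀' : (u / g₀ ^ m)⁻¹ ∈ O)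
    (hcart₁ : ∀ x : Ideal ↥C₁, x.IsMaximal → algebraMap A₀ ↥C₁ ϖ ∈ x →
      ∃ g : F, g ≠ 0 ∧ ∃ a b : ↥C₁, a ∉ x ∧ b ∉ x ∧ u * (b : F) = (a : F) * g ^ m)
    (hcart₂ : ∀ x : Ideal ↥C₂, x.IsMaximal → algebraMap A₀ ↥C₂ ϖ ∈ x →
      ∃ g : F, g ≠ 0 ∧ ∃ a b : ↥C₂, a ∉ x ∧ b ∉ x ∧ u * (b : F) = (a : F) * g ^ m) :
    ∃ h : F, h ≠ 0 ∧ τ u / u * h ^ m ∈ C₁ ∧ τ u / u * h ^ m ∈ C₂ := by
  have hm0 : m ≠ 0 := by
    rintro rfl
    rw [Nat.cast_zero] at hm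
    exact not_isUnit_zero hm
  set ε₀ : F := u / g₀ ^ m with hεdef
  have hgm0 : g₀ ^ m ≠ 0 := pow_ne_zero m hg₀
  have hε₀0 : ε₀ ≠ 0 := div_ne_zero hu0 hgm0
  have hu : u = ε₀ * g₀ ^ m := by
    rw [hεdef, div_mul_cancel₀ _ hgm0]
  have hτε₀ : τ ε₀ ≠ 0 := (map_ne_zero τ).2 hε₀0
  have hτg₀ : τ g₀ ≠ 0 := (map_ne_zero τ).2 hg₀
  -- the normalised function
  have hf0 : τ ε₀ / ε₀ ≠ 0 := div_ne_zero hτε₀ hε₀0
  have hfO : τ ε₀ / ε₀ ∈ O := by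
    rw [div_eq_mul_inv]
    exact O.mul_mem (hτO _ hε₀) hε₀'
  have hfinv : (τ ε₀ / ε₀)⁻¹ ∈ O := by
    rw [inv_div, div_eq_mul_inv, ← map_inv₀]
    exact O.mul_mem hε₀ (hτO _ hε₀')
  have hf1 : Dv ϖ O (τ ε₀ / ε₀ - 1) := by
    have e : τ ε₀ / ε₀ - 1 = (τ ε₀ - ε₀) * ε₀⁻¹ := by
      field_simp
    rw [e]
    exact (hτ1 _ hε₀).mul_right hε₀'
  obtain ⟨h, hh0, hh1, hh2⟩ := cech_charts_semilocal ϖ hϖ m hm j hj0 C₁ C₂ hj₁ hj₂ hfin₁ hfrac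
    hglue O hC₁O hC₂O hjO hnu hrootO hsat₁ hsat₂ hconst (τ ε₀ / ε₀) hf0 hfO hfinv hf1
    (by
      intro x hx hπ
      obtain ⟨g, hg, a, b, ha, hb, hab⟩ := hcart₁ x hx hπ
      exact local_datum_of_cartier ϖ m hm0 C₁ O hC₁O hrootO hsat₁ τ hτC₁ hτ1 ε₀ hε₀0 hε₀ hε₀'
        g₀ hg₀ x hx.isPrime hπ g hg a b ha hb (by rw [← hu]; exact hab))
    (by
      intro x hx hπ
      obtain ⟨g, hg, a, b, ha, hb, hab⟩ := hcart₂ x hx hπ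
      exact local_datum_of_cartier ϖ m hm0 C₂ O hC₂O hrootO hsat₂ τ hτC₂ hτ1 ε₀ hε₀0 hε₀ hε₀'
        g₀ hg₀ x hx.isPrime hπ g hg a b ha hb (by rw [← hu]; exact hab))
  have key : τ u / u * (h * g₀ / τ g₀) ^ m = τ ε₀ / ε₀ * h ^ m := by
    rw [hu, map_mul, map_pow, div_pow, mul_pow]
    field_simp
  refine ⟨h * g₀ / τ g₀, div_ne_zero (mul_ne_zero hh0 hg₀) hτg₀, ?_, ?_⟩
  · rw [key]
    exact hh1
  · rw [key]
    exact hh2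

end Main

end Fermat.Agent.S34.H10
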