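/-
Program B' (S34), Step 2 in the language of the geometry side (helper10): the semi-local ring `O`
of `cech_charts_semilocal` / `exists_pow_mul_mem_of_cartier` is the intersection of TWO valuation
subrings `V₁`, `V₂` of `F` (the Gauss rings of the two components of the special fibre) having
the same uniformiser `ϖ` as `A₀`.  All hypotheses are stated on `V₁`, `V₂`.
-/
import Fermat.Agent.S34.H10.Step2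

set_option autoImplicit false

noncomputable section

namespace Fermat.Agent.S34.H10

open Fermat.Agent.S18.H47 Fermat.Agent.S18.H86

section Inter

variable {A₀ : Type*} [CommRing A₀] {F : Type*} [Field F] [Algebra A₀ F]

/-- The intersection of two valuation subrings containing the image of `A₀`, as a subalgebra. -/
def interAlg (V₁ V₂ : ValuationSubring F) (h₁ : ∀ a : A₀, algebraMap A₀ F a ∈ V₁)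
    (h₂ : ∀ a : A₀, algebraMap A₀ F a ∈ V₂) : Subalgebra A₀ F where
  carrier := {y | y ∈ V₁ ∧ y ∈ V₂}
  mul_mem' := fun ha hb => ⟨V₁.mul_mem _ _ ha.1 hb.1, V₂.mul_mem _ _ ha.2 hb.2⟩
  add_mem' := fun ha hb => ⟨V₁.add_mem _ _ ha.1 hb.1, V₂.add_mem _ _ ha.2 hb.2⟩
  algebraMap_mem' := fun a => ⟨h₁ a, h₂ a⟩

theorem mem_interAlg {V₁ V₂ : ValuationSubring F} {h₁ : ∀ a : A₀, algebraMap A₀ F a ∈ V₁}
    {h₂ : ∀ a : A₀, algebraMap A₀ F a ∈ V₂} {y : F} :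
    y ∈ interAlg V₁ V₂ h₁ h₂ ↔ y ∈ V₁ ∧ y ∈ V₂ := Iff.rfl

/-- `ϖ` is a uniformiser of the valuation subring `V`. -/
def IsUnif (ϖ : A₀) (V : ValuationSubring F) : Prop :=
  ∀ y : F, y ∈ V.nonunits ↔ ∃ d ∈ V, y = ϖ • d

/-- Divisibility by `ϖ` in `V₁ ∩ V₂` is membership in both maximal ideals. -/
theorem dv_interAlg_iff {ϖ : A₀} {V₁ V₂ : ValuationSubring F}
    {h₁ : ∀ a : A₀, algebraMap A₀ F a ∈ V₁} {h₂ : ∀ a : A₀, algebraMap A₀ F a ∈ V₂}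
    (hu₁ : IsUnif ϖ V₁) (hu₂ : IsUnif ϖ V₂) (hϖ0 : algebraMap A₀ F ϖ ≠ 0) {y : F} :
    Dv ϖ (interAlg V₁ V₂ h₁ h₂) y ↔ y ∈ V₁.nonunits ∧ y ∈ V₂.nonunits := by
  constructor
  · rintro ⟨d, hd, rfl⟩
    exact ⟨(hu₁ _).2 ⟨d, hd.1, rfl⟩, (hu₂ _).2 ⟨d, hd.2, rfl⟩⟩
  · rintro ⟨hy₁, hy₂⟩
    obtain ⟨d₁, hd₁, rfl⟩ := (hu₁ _).1 hy₁
    obtain ⟨d₂, hd₂, h⟩ := (hu₂ _).1 hy₂
    have e : d₁ = d₂ := by
      rw [Algebra.smul_def, Algebra.smul_def] at h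
      exact mul_left_cancel₀ hϖ0 h
    exact ⟨d₁, ⟨hd₁, e ▸ hd₂⟩, rfl⟩

/-- Valuation subrings are closed under roots. -/
theorem mem_valuationSubring_of_pow_mem (V : ValuationSubring F) {m : ℕ} (hm : m ≠ 0) {z : F}
    (hz : z ^ m ∈ V) : z ∈ V := by
  rw [← ValuationSubring.valuation_le_one_iff] at hz ⊢
  rw [map_pow] at hz
  exact (pow_le_one_iff hm).1 hz

end Inter

section Main

/-- **Step 2 for two Gauss rings.**  Two integrally closed charts `C₁ ∋ j`, `C₂ ∋ j⁻¹` over a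
discrete valuation ring `A₀`, glued along `j`, inside two valuation subrings `V₁`, `V₂` with
uniformiser `ϖ` (the two components of the special fibre), saturated (`C_i = C_i[1/ϖ] ∩ V₁ ∩ V₂`);
constants on each component (`hconst₁`, `hconst₂`) and a crossing point `x₀` of the first chart
(`hnode`); `τ` a ring automorphism of `F` preserving the charts and `V₁`, `V₂` and trivial on both
residue fields; `u` satisfying the Cartier condition at every maximal ideal `∋ ϖ` of both charts,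
with `u / g₀ ^ m` a unit at `V₁` and `V₂`.  Then `τ u / u * h ^ m` is a global function for some
`h ≠ 0`. -/
theorem exists_pow_mul_mem_of_cartier_two
    {A₀ : Type*} [CommRing A₀] [IsDomain A₀] [IsDiscreteValuationRing A₀]
    {F : Type*} [Field F] [Algebra A₀ F] [FaithfulSMul A₀ F]
    (ϖ : A₀) (hϖ : Irreducible ϖ) (m : ℕ) (hm : IsUnit (m : A₀)) (j : F) (hj0 : j ≠ 0)
    (C₁ C₂ : Subalgebra A₀ F) [IsIntegrallyClosed ↥C₁] [IsIntegrallyClosed ↥C₂]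
    (hj₁ : j ∈ C₁) (hj₂ : j⁻¹ ∈ C₂)
    (hfin₁ : ∃ s : Finset F, (C₁ : Set F) =
      Submodule.span (Algebra.adjoin A₀ ({j} : Set F)) (s : Set F))
    (hfrac : ∀ x : F, ∃ a ∈ C₁, ∃ b ∈ C₁, b ≠ 0 ∧ x = a / b)
    (hglue : ∀ x : F, (∃ n : ℕ, j ^ n * x ∈ C₁) ↔ (∃ n : ℕ, j⁻¹ ^ n * x ∈ C₂))
    (V₁ V₂ : ValuationSubring F) (hu₁ : IsUnif ϖ V₁) (hu₂ : IsUnif ϖ V₂)
    (hC₁V₁ : ∀ c ∈ C₁, c ∈ V₁) (hC₁V₂ : ∀ c ∈ C₁, c ∈ V₂)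
    (hC₂V₁ : ∀ c ∈ C₂, c ∈ V₁) (hC₂V₂ : ∀ c ∈ C₂, c ∈ V₂)
    (hjV₁ : j⁻¹ ∈ V₁) (hjV₂ : j⁻¹ ∈ V₂)
    (hsat₁ : ∀ y : F, y ∈ V₁ → y ∈ V₂ → ϖ • y ∈ C₁ → y ∈ C₁)
    (hsat₂ : ∀ y : F, y ∈ V₁ → y ∈ V₂ → ϖ • y ∈ C₂ → y ∈ C₂)
    (hconst₁ : ∀ c₁ ∈ C₁, ∀ c₂ ∈ C₂, c₁ - c₂ ∈ V₁.nonunits →
      ∃ a : A₀, c₁ - algebraMap A₀ F a ∈ V₁.nonunits)
    (hconst₂ : ∀ c₁ ∈ C₁, ∀ c₂ ∈ C₂, c₁ - c₂ ∈ V₂.nonunits →
      ∃ a : A₀, c₁ - algebraMap A₀ F a ∈ V₂.nonunits)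
    (hnode : ∃ x₀ : Ideal ↥C₁, x₀ ≠ ⊤ ∧
      ∀ c : ↥C₁, ((c : F) ∈ V₁.nonunits ∨ (c : F) ∈ V₂.nonunits) → c ∈ x₀)
    (τ : F ≃+* F) (hτC₁ : ∀ c ∈ C₁, τ c ∈ C₁) (hτC₂ : ∀ c ∈ C₂, τ c ∈ C₂)
    (hτV₁ : ∀ y ∈ V₁, τ y ∈ V₁) (hτV₂ : ∀ y ∈ V₂, τ y ∈ V₂)
    (hτ1₁ : ∀ y ∈ V₁, τ y - y ∈ V₁.nonunits) (hτ1₂ : ∀ y ∈ V₂, τ y - y ∈ V₂.nonunits)
    (u g₀ : F) (hu0 : u ≠ 0) (hg₀ : g₀ ≠ 0)
    (hε₁ : u / g₀ ^ m ∈ V₁) (hε₁' : (u / g₀ ^ m)⁻¹ ∈ V₁)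
    (hε₂ : u / g₀ ^ m ∈ V₂) (hε₂' : (u / g₀ ^ m)⁻¹ ∈ V₂)
    (hcart₁ : ∀ x : Ideal ↥C₁, x.IsMaximal → algebraMap A₀ ↥C₁ ϖ ∈ x →
      ∃ g : F, g ≠ 0 ∧ ∃ a b : ↥C₁, a ∉ x ∧ b ∉ x ∧ u * (b : F) = (a : F) * g ^ m)
    (hcart₂ : ∀ x : Ideal ↥C₂, x.IsMaximal → algebraMap A₀ ↥C₂ ϖ ∈ x →
      ∃ g : F, g ≠ 0 ∧ ∃ a b : ↥C₂, a ∉ x ∧ b ∉ x ∧ u * (b : F) = (a : F) * g ^ m) :
    ∃ h : F, h ≠ 0 ∧ τ u / u * h ^ m ∈ C₁ ∧ τ u / u * h ^ m ∈ C₂ := by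
  have hϖ0 : algebraMap A₀ F ϖ ≠ 0 := fun h0 =>
    hϖ.ne_zero (FaithfulSMul.algebraMap_injective A₀ F (by rw [h0, map_zero]))
  have hm0 : m ≠ 0 := by
    rintro rfl
    rw [Nat.cast_zero] at hm
    exact not_isUnit_zero hm
  have hA₁ : ∀ a : A₀, algebraMap A₀ F a ∈ V₁ := fun a => hC₁V₁ _ (C₁.algebraMap_mem a)
  have hA₂ : ∀ a : A₀, algebraMap A₀ F a ∈ V₂ := fun a => hC₁V₂ _ (C₁.algebraMap_mem a)
  have hdv : ∀ y : F, Dv ϖ (interAlg V₁ V₂ hA₁ hA₂) y ↔ y ∈ V₁.nonunits ∧ y ∈ V₂.nonunits :=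
    fun y => dv_interAlg_iff hu₁ hu₂ hϖ0
  -- `ϖ` lies in both maximal ideals
  have hϖ₁ : algebraMap A₀ F ϖ ∈ V₁.nonunits :=
    (hu₁ _).2 ⟨1, V₁.one_mem, by rw [Algebra.smul_def, mul_one]⟩
  have hϖ₂ : algebraMap A₀ F ϖ ∈ V₂.nonunits :=
    (hu₂ _).2 ⟨1, V₂.one_mem, by rw [Algebra.smul_def, mul_one]⟩
  refine exists_pow_mul_mem_of_cartier ϖ hϖ m hm j hj0 C₁ C₂ hj₁ hj₂ hfin₁ hfrac hglue
    (interAlg V₁ V₂ hA₁ hA₂) (fun c hc => ⟨hC₁V₁ c hc, hC₁V₂ c hc⟩)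
    (fun c hc => ⟨hC₂V₁ c hc, hC₂V₂ c hc⟩) ⟨hjV₁, hjV₂⟩ ?_ ?_
    (fun y hy h => hsat₁ y hy.1 hy.2 h) (fun y hy h => hsat₂ y hy.1 hy.2 h) ?_
    τ hτC₁ hτC₂ (fun y hy => ⟨hτV₁ y hy.1, hτV₂ y hy.2⟩)
    (fun y hy => (hdv _).2 ⟨hτ1₁ y hy.1, hτ1₂ y hy.2⟩)
    u g₀ hu0 hg₀ ⟨hε₁, hε₂⟩ ⟨hε₁', hε₂'⟩ hcart₁ hcart₂
  · -- `ϖ` is not a unit of `O`
    intro h
    have h1 := ((hdv 1).1 h).1
    rw [ValuationSubring.mem_nonunits_iff, map_one] at h1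
    exact lt_irrefl _ h1
  · -- root closedness
    intro z hz
    exact ⟨mem_valuationSubring_of_pow_mem V₁ hm0 hz.1, mem_valuationSubring_of_pow_mem V₂ hm0 hz.2⟩
  · -- constants: on each component, glued at the crossing point
    intro c₁ hc₁ c₂ hc₂ hd
    obtain ⟨hd₁, hd₂⟩ := (hdv _).1 hd
    obtain ⟨a₁, ha₁⟩ := hconst₁ c₁ hc₁ c₂ hc₂ hd₁
    obtain ⟨a₂, ha₂⟩ := hconst₂ c₁ hc₁ c₂ hc₂ hd₂
    obtain ⟨x₀, hx₀, hnode⟩ := hnode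
    refine ⟨a₁, (hdv _).2 ⟨ha₁, ?_⟩⟩
    -- `a₁ - a₂ ∈ x₀ ∩ A₀`, hence `ϖ ∣ a₁ - a₂`
    have h1 : (⟨c₁, hc₁⟩ - algebraMap A₀ ↥C₁ a₁ : ↥C₁) ∈ x₀ := hnode _ (Or.inl ha₁)
    have h2 : (⟨c₁, hc₁⟩ - algebraMap A₀ ↥C₁ a₂ : ↥C₁) ∈ x₀ := hnode _ (Or.inr ha₂)
    have h3 : algebraMap A₀ ↥C₁ (a₁ - a₂) ∈ x₀ := by
      have e : algebraMap A₀ ↥C₁ (a₁ - a₂)
          = (⟨c₁, hc₁⟩ - algebraMap A₀ ↥C₁ a₂ : ↥C₁) - (⟨c₁, hc₁⟩ - algebraMap A₀ ↥C₁ a₁) := by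
        rw [map_sub]
        ring
      rw [e]
      exact x₀.sub_mem h2 h1
    have h4 : ¬ IsUnit (a₁ - a₂) := by
      intro hunit
      exact hx₀ (Ideal.eq_top_of_isUnit_mem _ h3 (hunit.map (algebraMap A₀ ↥C₁)))
    have h5 : ϖ ∣ a₁ - a₂ := by
      have h6 : a₁ - a₂ ∈ IsLocalRing.maximalIdeal A₀ := (IsLocalRing.mem_maximalIdeal _).mpr h4
      rw [hϖ.maximalIdeal_eq] at h6
      exact Ideal.mem_span_singleton.mp h6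
    obtain ⟨e, he⟩ := h5
    have h7 : algebraMap A₀ F (a₁ - a₂) ∈ V₂.nonunits := by
      rw [he, map_mul]
      rw [ValuationSubring.mem_nonunits_iff, map_mul]
      exact mul_lt_one_of_lt_of_le ((ValuationSubring.mem_nonunits_iff _).1 hϖ₂)
        ((ValuationSubring.valuation_le_one_iff _ _).2 (hA₂ e))
    have e8 : c₁ - algebraMap A₀ F a₁
        = (c₁ - algebraMap A₀ F a₂) - algebraMap A₀ F (a₁ - a₂) := by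
      rw [map_sub]
      ring
    rw [e8, ValuationSubring.mem_nonunits_iff]
    rw [ValuationSubring.mem_nonunits_iff] at ha₂ h7
    exact lt_of_le_of_lt (Valuation.map_sub _ _ _) (max_lt ha₂ h7)

end Main

end Fermat.Agent.S34.H10
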