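/-
Program B' (S34), obligation (O1) of Step 2 (helper10): CONSTANTS ON EACH COMPONENT, i.e. the
hypotheses `hconst₁`, `hconst₂` of `exists_pow_mul_mem_of_cartier_two` (and `hk₁`, `hk₂` of
`H77.hconst_of_components`) at the discrete level.

* `ConstClause A₀ V` : the residue field of `A₀` is algebraically closed in the residue field of
  the valuation subring `V` (the shape of `H19.DSetup.const`);
* `hk_of_const` : for a valuation subring `V ⊇ A₀` in which `x` is a unit, with `ConstClause`: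
  a function regular on both charts of the component `V` is constant modulo `m_V`
  (the pattern of `S18.H72.chart_const_of`, for an arbitrary valuation subring);
* `constClause_of_res` : `ConstClause` goes up along `K ⊆ L` from `O₀` to a valuation subring
  `V₁` of `L` over `O₀` with residue degree one (`TwoExt.res₁`);
* `constClause_comap` : `ConstClause` is transported by a ring automorphism fixing `A₀`
  (`V₂ = V₁.comap w`).
-/
import Fermat.Agent.S18.H72.ChartConst

set_option autoImplicit false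

open Polynomial

noncomputable section

namespace Fermat.Agent.S34.H10

open Fermat.Agent.S18 Fermat.Agent.S18.H19

/-- The residue field of `A₀` is algebraically closed in the residue field of `V`. -/
def ConstClause (A₀ : Type*) [CommRing A₀] {F : Type*} [Field F] [Algebra A₀ F]
    (V : ValuationSubring F) : Prop :=
  ∀ γ ∈ V, (∃ P : A₀[X], P.Monic ∧ aeval γ P ∈ V.nonunits) →
    ∃ a : A₀, γ - algebraMap A₀ F a ∈ V.nonunits

section One

variable {A₀ : Type*} [CommRing A₀] {F : Type*} [Field F] [Algebra A₀ F]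

/-- Membership of `P(g)` in the maximal ideal, read in the residue field. -/
theorem aeval_mem_nonunits_iff (V : ValuationSubring F) (hA : ∀ a : A₀, algebraMap A₀ F a ∈ V)
    (P : A₀[X]) {g : F} (hg : g ∈ V) :
    aeval g P ∈ V.nonunits ↔
      P.eval₂ ((IsLocalRing.residue ↥V).comp
        ((algebraMap A₀ F).codRestrict V.toSubring hA : A₀ →+* ↥V))
        (IsLocalRing.residue ↥V ⟨g, hg⟩) = 0 := by
  have h4 : ((P.eval₂ ((algebraMap A₀ F).codRestrict V.toSubring hA : A₀ →+* ↥V)
      (⟨g, hg⟩ : ↥V) : ↥V) : F) = aeval g P :=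
    Polynomial.hom_eval₂ P ((algebraMap A₀ F).codRestrict V.toSubring hA : A₀ →+* ↥V)
      V.subtype ⟨g, hg⟩
  rw [← Polynomial.hom_eval₂, IsLocalRing.residue_eq_zero_iff,
    ValuationSubring.mem_nonunits_iff_exists_mem_maximalIdeal]
  constructor
  · rintro ⟨h, hm⟩
    convert hm using 1
    exact Subtype.ext h4
  · intro hm
    refine ⟨h4 ▸ Subtype.mem _, ?_⟩
    convert hm using 1
    exact Subtype.ext h4.symm

/-- Two elements of `V` congruent modulo `m_V` have the same residue class. -/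
theorem residue_eq_of_sub_mem_nonunits (V : ValuationSubring F) {g h : F} (hg : g ∈ V)
    (hh : h ∈ V) (hgh : g - h ∈ V.nonunits) :
    IsLocalRing.residue ↥V ⟨g, hg⟩ = IsLocalRing.residue ↥V ⟨h, hh⟩ := by
  rw [← sub_eq_zero, ← map_sub, IsLocalRing.residue_eq_zero_iff]
  obtain ⟨h1, h2⟩ := ValuationSubring.mem_nonunits_iff_exists_mem_maximalIdeal.mp hgh
  exact h2

/-- `P(g) ∈ m_V` depends only on the class of `g` modulo `m_V`. -/
theorem aeval_mem_nonunits_congr (V : ValuationSubring F) (hA : ∀ a : A₀, algebraMap A₀ F a ∈ V)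
    (P : A₀[X]) {g h : F} (hg : g ∈ V) (hh : h ∈ V) (hgh : g - h ∈ V.nonunits)
    (hP : aeval g P ∈ V.nonunits) : aeval h P ∈ V.nonunits := by
  rw [aeval_mem_nonunits_iff V hA P hh, ← residue_eq_of_sub_mem_nonunits V hg hh hgh,
    ← aeval_mem_nonunits_iff V hA P hg]
  exact hP

/-- The sum of two elements of the maximal ideal. -/
theorem add_mem_nonunits (V : ValuationSubring F) {a b : F} (ha : a ∈ V.nonunits)
    (hb : b ∈ V.nonunits) : a + b ∈ V.nonunits := by
  rw [ValuationSubring.mem_nonunits_iff] at ha hb ⊢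
  exact lt_of_le_of_lt (Valuation.map_add _ _ _) (max_lt ha hb)

/-- **(O1), one component.**  `V ⊇ A₀` a valuation subring in which `x` is a unit and in whose
residue field the residue field of `A₀` is algebraically closed.  A function `c₁` regular on the
chart of `x` which is congruent modulo `m_V` to a function `c₂` regular on the chart of `x⁻¹` is
congruent modulo `m_V` to a constant. -/
theorem hk_of_const (V : ValuationSubring F) (hA : ∀ a : A₀, algebraMap A₀ F a ∈ V) (x : F)
    (hx : x ∈ V) (hx' : x⁻¹ ∈ V) (hx0 : x ≠ 0) (hconst : ConstClause A₀ V) :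
    ∀ c₁ ∈ chart A₀ x, ∀ c₂ ∈ chart A₀ x⁻¹, c₁ - c₂ ∈ V.nonunits →
      ∃ a : A₀, c₁ - algebraMap A₀ F a ∈ V.nonunits := by
  intro c₁ hc₁ c₂ hc₂ hrel
  have hc₁O := H72.chart_subset_valuationSubring V hA hx c₁ hc₁
  have hc₂O : c₂ ∈ V := H72.chart_subset_valuationSubring V hA hx' c₂ hc₂
  have hxx : (⟨x, hx⟩ : ↥V) * ⟨x⁻¹, hx'⟩ = 1 := Subtype.ext (mul_inv_cancel₀ hx0)
  have hresx : IsLocalRing.residue ↥V ⟨x, hx⟩ * IsLocalRing.residue ↥V ⟨x⁻¹, hx'⟩ = 1 := by
    rw [← map_mul, hxx, map_one]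
  have hinv : IsLocalRing.residue ↥V ⟨x⁻¹, hx'⟩ = (IsLocalRing.residue ↥V ⟨x, hx⟩)⁻¹ :=
    eq_inv_of_mul_eq_one_right hresx
  have heq : IsLocalRing.residue ↥V ⟨c₁, hc₁O⟩ = IsLocalRing.residue ↥V ⟨c₂, hc₂O⟩ :=
    residue_eq_of_sub_mem_nonunits V hc₁O hc₂O hrel
  -- integrality over the two charts, in the residue field
  have h₁ := H72.isIntegral_residue_chart V hA x hx c₁ hc₁ hc₁O
  have h₂ := H72.isIntegral_residue_chart V hA x⁻¹ hx' c₂ hc₂ hc₂O
  rw [← heq, hinv] at h₂
  have h₃ := H30.cech_isIntegral_of_two_charts _ _ _ h₁ h₂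
  rw [← RingHom.coe_range, Subring.closure_eq] at h₃
  obtain ⟨P, hP, hP0⟩ := H30.k7_isIntegralElem_of_isIntegral_range _ _ h₃
  exact hconst c₁ hc₁O ⟨P, hP, (aeval_mem_nonunits_iff V hA P hc₁O).mpr hP0⟩

/-- **(O1), transport.**  `ConstClause` is transported by a ring automorphism `w` of `F` fixing
`A₀`: it holds for `V.comap w` as soon as it holds for `V`. -/
theorem constClause_comap (V : ValuationSubring F) (w : F ≃+* F)
    (hw : ∀ a : A₀, w (algebraMap A₀ F a) = algebraMap A₀ F a) (hconst : ConstClause A₀ V) :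
    ConstClause A₀ (V.comap (w : F →+* F)) := by
  -- the maximal ideal of the comap
  have hnon : ∀ y : F, y ∈ (V.comap (w : F →+* F)).nonunits ↔ w y ∈ V.nonunits := by
    intro y
    rw [ValuationSubring.mem_nonunits_iff_or, ValuationSubring.mem_nonunits_iff_or,
      ValuationSubring.mem_comap, RingHom.coe_coe, map_inv₀, map_eq_zero_iff w w.injective]
  let wA : F →ₐ[A₀] F := { (w : F →+* F) with commutes' := hw }
  have hwA : ∀ y : F, wA y = w y := fun _ => rfl
  rintro γ hγ ⟨P, hP, hPγ⟩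
  have hγ' : w γ ∈ V := hγ
  have h1 : aeval (w γ) P ∈ V.nonunits := by
    rw [← hwA, Polynomial.aeval_algHom_apply, hwA]
    exact (hnon _).mp hPγ
  obtain ⟨a, ha⟩ := hconst (w γ) hγ' ⟨P, hP, h1⟩
  refine ⟨a, (hnon _).mpr ?_⟩
  rw [map_sub, hw]
  exact ha

end One

section Up

variable {A₀ : Type*} [CommRing A₀] {K L : Type*} [Field K] [Field L]
  [Algebra A₀ K] [Algebra A₀ L] [Algebra K L] [IsScalarTower A₀ K L]

/-- The maximal ideal of a valuation subring of `L` lying over `O₀` restricts to the maximal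
ideal of `O₀`. -/
theorem algebraMap_mem_nonunits_iff (O₀ : ValuationSubring K) (V₁ : ValuationSubring L)
    (hcomap : ∀ v : K, algebraMap K L v ∈ V₁ ↔ v ∈ O₀) (v : K) :
    algebraMap K L v ∈ V₁.nonunits ↔ v ∈ O₀.nonunits := by
  rw [ValuationSubring.mem_nonunits_iff_or, ValuationSubring.mem_nonunits_iff_or, ← map_inv₀,
    hcomap, map_eq_zero_iff _ (algebraMap K L).injective]

/-- **(O1), going up.**  `V₁` a valuation subring of `L` lying over the valuation subring `O₀` of
`K`, with residue degree one (every element of `V₁` is congruent modulo `m_{V₁}` to an element of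
`O₀`).  Then `ConstClause` for `O₀` gives `ConstClause` for `V₁`. -/
theorem constClause_of_res (O₀ : ValuationSubring K) (V₁ : ValuationSubring L)
    (hcomap : ∀ v : K, algebraMap K L v ∈ V₁ ↔ v ∈ O₀)
    (hres : ∀ g ∈ V₁, ∃ v ∈ O₀, g - algebraMap K L v ∈ V₁.nonunits)
    (hA : ∀ a : A₀, algebraMap A₀ K a ∈ O₀) (hconst : ConstClause A₀ O₀) :
    ConstClause A₀ V₁ := by
  have hA₁ : ∀ a : A₀, algebraMap A₀ L a ∈ V₁ := by
    intro a
    rw [IsScalarTower.algebraMap_apply A₀ K L]
    exact (hcomap _).mpr (hA a)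
  rintro γ hγ ⟨P, hP, hPγ⟩
  obtain ⟨v, hv, hγv⟩ := hres γ hγ
  have hv₁ : algebraMap K L v ∈ V₁ := (hcomap v).mpr hv
  have h1 : aeval (algebraMap K L v) P ∈ V₁.nonunits :=
    aeval_mem_nonunits_congr V₁ hA₁ P hγ hv₁ hγv hPγ
  rw [Polynomial.aeval_algebraMap_apply, algebraMap_mem_nonunits_iff O₀ V₁ hcomap] at h1
  obtain ⟨a, ha⟩ := hconst v hv ⟨P, hP, h1⟩
  refine ⟨a, ?_⟩
  have h2 : algebraMap K L (v - algebraMap A₀ K a) ∈ V₁.nonunits :=
    (algebraMap_mem_nonunits_iff O₀ V₁ hcomap _).mpr ha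
  rw [map_sub, ← IsScalarTower.algebraMap_apply A₀ K L] at h2
  have e : γ - algebraMap A₀ L a
      = (γ - algebraMap K L v) + (algebraMap K L v - algebraMap A₀ L a) := by ring
  rw [e]
  exact add_mem_nonunits V₁ hγv h2

end Up

end Fermat.Agent.S34.H10
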