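/-
Program B' (S34), instantiation glue for Step 2 (helper10): the SATURATION hypothesis `hsat` of
`exists_pow_mul_mem_of_cartier_two` at the level `q M'`, from the level-`M'` saturation
(`S18.H6.chart_sat`) and the two-extension lemma (`H64.TwoExt.integral_iff`).

`K ⊆ L` fields (in the application `K = F_{M',K₀}`, `L = F_{qM',K₀}` along `α`), `C` an integrally
closed `A₀`-subalgebra of `K` with `Frac C = K`, `O₀` a valuation subring of `K` with
`C = C[1/ϖ] ∩ O₀`.

* `isIntegral_of_sat` : an element of `L` integral over `O₀` whose `ϖ`-multiple is integral over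
  `C` is integral over `C`;
* `mem_chart_map_iff` : the chart of `x ∈ K` computed in `L` is the integral closure of the chart
  computed in `K`;
* `chart_sat_top` : the chart of `x` in `L` is saturated in `V₁ ∩ V₂` whenever `V₁ ∩ V₂` is
  integral over `O₀`.
-/
import Fermat.Agent.S18.H47.Saturation
import Fermat.Agent.S18.H19.Core2Defs
import Fermat.Agent.S18.H30.CechSkel

set_option autoImplicit false

open Polynomial

noncomputable section

namespace Fermat.Agent.S34.H10

open Fermat.Agent.S18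

section Sat

variable {A₀ : Type*} [CommRing A₀] {K L : Type*} [Field K] [Field L]
  [Algebra A₀ K] [Algebra A₀ L] [Algebra K L] [IsScalarTower A₀ K L]

/-- Saturation for powers of `ϖ`. -/
theorem sat_pow_valuationSubring (ϖ : A₀) (C : Subalgebra A₀ K) (O₀ : ValuationSubring K)
    (hA : ∀ a : A₀, algebraMap A₀ K a ∈ O₀) (hsat : ∀ h ∈ O₀, ϖ • h ∈ C → h ∈ C) (n : ℕ) :
    ∀ h ∈ O₀, h * algebraMap A₀ K ϖ ^ n ∈ C → h ∈ C := by
  induction n with
  | zero =>
    intro h _ hc
    rwa [pow_zero, mul_one] at hc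
  | succ n ih =>
    intro h hO hc
    refine ih h hO (hsat _ (O₀.mul_mem _ _ hO (O₀.pow_mem (hA ϖ) n)) ?_)
    rw [Algebra.smul_def]
    have e : algebraMap A₀ K ϖ * (h * algebraMap A₀ K ϖ ^ n) = h * algebraMap A₀ K ϖ ^ (n + 1) := by
      ring
    rw [e]
    exact hc

/-- **Saturation along an algebraic extension.**  `C` integrally closed with `Frac C = K`,
saturated in the valuation subring `O₀` of `K`.  An element `y` of `L` which is integral over
`O₀` and whose multiple `ϖ y` is integral over `C` is integral over `C`. -/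
theorem isIntegral_of_sat [Algebra.IsAlgebraic K L] (ϖ : A₀) (hϖ0 : algebraMap A₀ K ϖ ≠ 0)
    (C : Subalgebra A₀ K) [IsIntegrallyClosed ↥C]
    (hfrac : ∀ x : K, ∃ a ∈ C, ∃ b ∈ C, b ≠ 0 ∧ x = a / b)
    (O₀ : ValuationSubring K) (hA : ∀ a : A₀, algebraMap A₀ K a ∈ O₀)
    (hsat : ∀ h ∈ O₀, ϖ • h ∈ C → h ∈ C)
    (y : L) (hy : IsIntegral ↥O₀ y) (hϖy : IsIntegral ↥C (ϖ • y)) : IsIntegral ↥C y := by
  have hCfr : IsFractionRing ↥C K := H47.isFractionRing_of_frac C hfrac
  have hyK : IsIntegral K y := (Algebra.IsAlgebraic.isAlgebraic y).isIntegral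
  set m := minpoly K y with hm
  set d := m.natDegree with hd
  -- the coefficients of the minimal polynomial lie in `O₀`
  have h1 : ∀ k, m.coeff k ∈ O₀ := by
    intro k
    have e1 := minpoly.isIntegrallyClosed_eq_field_fractions' K hy
    have e2 := congrArg (fun P => P.coeff k) e1
    simp only [coeff_map] at e2
    rw [← hm] at e2
    rw [e2]
    exact (coeff (minpoly ↥O₀ y) k).2
  -- the coefficients of the minimal polynomial of `ϖ • y`
  have h2 : ∀ k, m.coeff k * algebraMap A₀ K ϖ ^ (d - k) ∈ C := by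
    intro k
    have hϖy' : IsIntegral ↥C (algebraMap A₀ K ϖ • y) := by rwa [algebraMap_smul]
    have e1 := minpoly.isIntegrallyClosed_eq_field_fractions' K hϖy'
    rw [H47.minpoly_smul_eq_scaleRoots _ hϖ0 y hyK] at e1
    have e2 := congrArg (fun P => P.coeff k) e1
    simp only [coeff_scaleRoots, coeff_map] at e2
    rw [← hm, ← hd] at e2
    rw [e2]
    exact (coeff (minpoly ↥C (algebraMap A₀ K ϖ • y)) k).2
  have h3 : ∀ k, m.coeff k ∈ C := fun k =>
    sat_pow_valuationSubring ϖ C O₀ hA hsat (d - k) _ (h1 k) (h2 k)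
  have hlift : m ∈ Polynomial.lifts (algebraMap ↥C K) := by
    rw [Polynomial.lifts_iff_coeff_lifts]
    intro k
    exact ⟨⟨_, h3 k⟩, rfl⟩
  obtain ⟨m', hm'map, -, hm'm⟩ := Polynomial.lifts_and_degree_eq_and_monic hlift
    (minpoly.monic hyK)
  refine ⟨m', hm'm, ?_⟩
  have h0 : eval₂ (algebraMap K L) y m = 0 := minpoly.aeval K y
  rw [← hm'map, eval₂_map] at h0
  exact h0

end Sat

section Chart

variable {A₀ : Type*} [CommRing A₀] {K L : Type*} [Field K] [Field L]
  [Algebra A₀ K] [Algebra A₀ L] [Algebra K L] [IsScalarTower A₀ K L]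

/-- The image of `A₀[x]` in `L` lies in `A₀[x']`, `x'` the image of `x`. -/
theorem algebraMap_mem_adjoin_map (x : K) {z : K} (hz : z ∈ Algebra.adjoin A₀ ({x} : Set K)) :
    algebraMap K L z ∈ Algebra.adjoin A₀ ({algebraMap K L x} : Set L) := by
  induction hz using Algebra.adjoin_induction with
  | mem z hz =>
    rw [Set.mem_singleton_iff.mp hz]
    exact Algebra.subset_adjoin rfl
  | algebraMap a =>
    rw [← IsScalarTower.algebraMap_apply]
    exact Subalgebra.algebraMap_mem _ a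
  | add z w _ _ hz hw =>
    rw [map_add]
    exact add_mem hz hw
  | mul z w _ _ hz hw =>
    rw [map_mul]
    exact mul_mem hz hw

/-- `A₀[x']` is the image of `A₀[x]`. -/
theorem exists_of_mem_adjoin_map (x : K) {z : L}
    (hz : z ∈ Algebra.adjoin A₀ ({algebraMap K L x} : Set L)) :
    ∃ z₀ ∈ Algebra.adjoin A₀ ({x} : Set K), algebraMap K L z₀ = z := by
  induction hz using Algebra.adjoin_induction with
  | mem z hz =>
    rw [Set.mem_singleton_iff.mp hz]
    exact ⟨x, Algebra.subset_adjoin rfl, rfl⟩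
  | algebraMap a =>
    exact ⟨algebraMap A₀ K a, Subalgebra.algebraMap_mem _ a,
      (IsScalarTower.algebraMap_apply A₀ K L a).symm⟩
  | add z w _ _ hz hw =>
    obtain ⟨z₀, hz₀, rfl⟩ := hz
    obtain ⟨w₀, hw₀, rfl⟩ := hw
    exact ⟨z₀ + w₀, add_mem hz₀ hw₀, map_add _ _ _⟩
  | mul z w _ _ hz hw =>
    obtain ⟨z₀, hz₀, rfl⟩ := hz
    obtain ⟨w₀, hw₀, rfl⟩ := hw
    exact ⟨z₀ * w₀, mul_mem hz₀ hw₀, map_mul _ _ _⟩

/-- An element of `L` integral over the chart of `x` in `K` lies in the chart of `x` in `L`. -/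
theorem mem_chart_map_of_isIntegral (x : K) {y : L} (hy : IsIntegral ↥(H19.chart A₀ x) y) :
    y ∈ H19.chart A₀ (algebraMap K L x) := by
  rw [H19.mem_chart_iff]
  -- `y` is integral over `A₀[x]`
  have h1 : IsIntegral ↥(Algebra.adjoin A₀ ({x} : Set K)) y := by
    haveI : Algebra.IsIntegral ↥(Algebra.adjoin A₀ ({x} : Set K))
        ↥(integralClosure ↥(Algebra.adjoin A₀ ({x} : Set K)) K) :=
      integralClosure.AlgebraIsIntegral
    exact isIntegral_trans (A := ↥(integralClosure ↥(Algebra.adjoin A₀ ({x} : Set K)) K)) y hy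
  exact H30.k7_isIntegral_subring_of_isIntegralElem
    (algebraMap ↥(Algebra.adjoin A₀ ({x} : Set K)) L)
    (Algebra.adjoin A₀ ({algebraMap K L x} : Set L)).toSubring
    (fun r => algebraMap_mem_adjoin_map x r.2) y h1

/-- An element of the chart of `x` in `L` is integral over the chart of `x` in `K`. -/
theorem isIntegral_of_mem_chart_map (x : K) {y : L} (hy : y ∈ H19.chart A₀ (algebraMap K L x)) :
    IsIntegral ↥(H19.chart A₀ x) y := by
  rw [H19.mem_chart_iff] at hy
  have hle : (Algebra.adjoin A₀ ({algebraMap K L x} : Set L)).toSubring ≤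
      (algebraMap ↥(H19.chart A₀ x) L).range := by
    intro z hz
    obtain ⟨z₀, hz₀, rfl⟩ := exists_of_mem_adjoin_map x hz
    refine ⟨⟨z₀, ?_⟩, rfl⟩
    rw [H19.mem_chart_iff]
    exact isIntegral_algebraMap (x := (⟨z₀, hz₀⟩ : Algebra.adjoin A₀ ({x} : Set K)))
  have h1 : IsIntegral ↥(algebraMap ↥(H19.chart A₀ x) L).range y :=
    hy.map_of_comp_eq (Subring.inclusion hle) (RingHom.id L) (RingHom.ext fun r => rfl)
  exact H30.k7_isIntegralElem_of_isIntegral_range _ y h1

/-- The chart of `x` computed in `L` is the integral closure in `L` of the chart computed in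
`K`. -/
theorem mem_chart_map_iff (x : K) (y : L) :
    y ∈ H19.chart A₀ (algebraMap K L x) ↔ IsIntegral ↥(H19.chart A₀ x) y :=
  ⟨isIntegral_of_mem_chart_map x, mem_chart_map_of_isIntegral x⟩

/-- **`hsat` at the top level.**  If the chart of `x` in `K` is saturated in the valuation subring
`O₀` of `K`, and every element of `V₁ ∩ V₂` is integral over `O₀` (two-extension lemma), then the
chart of `x` in `L` is saturated in `V₁ ∩ V₂`. -/
theorem chart_sat_top [Algebra.IsAlgebraic K L] (ϖ : A₀) (hϖ0 : algebraMap A₀ K ϖ ≠ 0) (x : K)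
    [IsIntegrallyClosed ↥(H19.chart A₀ x)]
    (hfrac : ∀ z : K, ∃ a ∈ H19.chart A₀ x, ∃ b ∈ H19.chart A₀ x, b ≠ 0 ∧ z = a / b)
    (O₀ : ValuationSubring K) (hA : ∀ a : A₀, algebraMap A₀ K a ∈ O₀)
    (hsat : ∀ h ∈ O₀, ϖ • h ∈ H19.chart A₀ x → h ∈ H19.chart A₀ x)
    (V₁ V₂ : ValuationSubring L) (hint : ∀ y : L, y ∈ V₁ → y ∈ V₂ → IsIntegral ↥O₀ y) :
    ∀ y : L, y ∈ V₁ → y ∈ V₂ → ϖ • y ∈ H19.chart A₀ (algebraMap K L x) →
      y ∈ H19.chart A₀ (algebraMap K L x) := by
  intro y hy₁ hy₂ hϖy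
  exact mem_chart_map_of_isIntegral x
    (isIntegral_of_sat ϖ hϖ0 (H19.chart A₀ x) hfrac O₀ hA hsat y (hint y hy₁ hy₂)
      (isIntegral_of_mem_chart_map x hϖy))

end Chart

end Fermat.Agent.S34.H10
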