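/-
Program B' (S34), leaf (M3 SEMILOCAL) of helper30's skeleton `S34/H30/Skeleton.lean` (helper10):
the fields of `H30.ChartData.Good` which involve the semi-local ring `O` of the generic points of
the special fibre, for `O = V₁ ∩ V₂` the intersection of the two Gauss rings.

* `SemiGood ϖ m j C₁ C₂ O τ₀` : the fields `le₁ le₂ j_inv_mem not_unit root sat₁ sat₂ const
  τ_mem₁ τ_mem₂ τ_mem τ_sub τ_unif τ_val` of `ChartData.Good`, VERBATIM;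
* `semiGood_of_two` (layer A, valuation vocabulary) : `SemiGood` for `O = interAlg V₁ V₂` from the
  hypotheses of `exists_pow_mul_mem_of_cartier_two_inter` on `V₁`, `V₂`;
* `semiGood_of_dsetup` (layer B) : `SemiGood` for the charts of `j = α(x)` in `L ⊇ K`, from
  the level below (`DSetup A₀ O₀ x`, `DSetup A₀ O₀ x⁻¹` in `K`), the two-extension lemma
  (`H64.TwoExt O₀ V₁ V₂`), an automorphism `w` of `L` over `A₀` with `V₂ = w⁻¹ V₁`, and the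
  automorphism `τ` (semilinear over `A₀`, fixing `j`, preserving `V₁`, `V₂` and trivial on their
  residue fields).
-/
import Fermat.Agent.S34.H10.TwoGauss
import Fermat.Agent.S34.H10.SatTop
import Fermat.Agent.S34.H10.CompConst
import Fermat.Agent.S34.H77.Conn
import Fermat.Agent.S34.H64.TwoExtDefs
import Fermat.Agent.S18.H6.ChartA
import Fermat.Agent.S18.H95.ChartD
import Fermat.Agent.S18.H80.ChartGauss
import Fermat.Agent.S18.H92.ChartE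
import Fermat.Agent.S34.H7.Step1Glue

set_option autoImplicit false

open Polynomial

noncomputable section

namespace Fermat.Agent.S34.H10

open Fermat.Agent.S18 Fermat.Agent.S18.H19 Fermat.Agent.S18.H47 Fermat.Agent.S18.H86

/-- The semi-local fields of `H30.ChartData.Good` (verbatim). -/
structure SemiGood {A₀ F₀ : Type*} [CommRing A₀] [Field F₀] [Algebra A₀ F₀] (ϖ : A₀) (m : ℕ)
    (j : F₀) (C₁ C₂ O : Subalgebra A₀ F₀) (τ₀ : F₀ ≃+* F₀) : Prop where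
  le₁ : C₁ ≤ O
  le₂ : C₂ ≤ O
  j_inv_mem : j⁻¹ ∈ O
  not_unit : ¬ Dv ϖ O 1
  root : ∀ z : F₀, z ^ m ∈ O → z ∈ O
  sat₁ : ∀ x ∈ O, ϖ • x ∈ C₁ → x ∈ C₁
  sat₂ : ∀ x ∈ O, ϖ • x ∈ C₂ → x ∈ C₂
  const : ∀ c₁ ∈ C₁, ∀ c₂ ∈ C₂, Dv ϖ O (c₁ - c₂) →
    ∃ a : A₀, Dv ϖ O (c₁ - algebraMap A₀ F₀ a)
  τ_mem₁ : ∀ c : F₀, τ₀ c ∈ C₁ ↔ c ∈ C₁
  τ_mem₂ : ∀ c : F₀, τ₀ c ∈ C₂ ↔ c ∈ C₂
  τ_mem : ∀ y ∈ O, τ₀ y ∈ O
  τ_sub : ∀ y ∈ O, Dv ϖ O (τ₀ y - y)
  τ_unif : ∃ e : A₀ˣ, τ₀ (algebraMap A₀ F₀ ϖ) = algebraMap A₀ F₀ (e * ϖ)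
  τ_val : ∀ y : F₀, y ≠ 0 → τ₀ y / y ∈ O ∧ y / τ₀ y ∈ O

/-- **(M3), layer A.**  `SemiGood` for `O = V₁ ∩ V₂`, in the vocabulary of the two valuation
subrings. -/
theorem semiGood_of_two
    {A₀ : Type*} [CommRing A₀] [IsDomain A₀] [IsDiscreteValuationRing A₀]
    {F : Type*} [Field F] [Algebra A₀ F] [FaithfulSMul A₀ F]
    (ϖ : A₀) (hϖ : Irreducible ϖ) (m : ℕ) (hm0 : m ≠ 0) (j : F) (hj0 : j ≠ 0)
    (C₁ C₂ : Subalgebra A₀ F) (hj₁ : j ∈ C₁) (hj₂ : j⁻¹ ∈ C₂)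
    (hfin₁ : ∃ s : Finset F, (C₁ : Set F) =
      Submodule.span (Algebra.adjoin A₀ ({j} : Set F)) (s : Set F))
    (hglue : ∀ x : F, (∃ n : ℕ, j ^ n * x ∈ C₁) ↔ (∃ n : ℕ, j⁻¹ ^ n * x ∈ C₂))
    (V₁ V₂ : ValuationSubring F) (hu₁ : IsUnif ϖ V₁) (hu₂ : IsUnif ϖ V₂)
    (hC₁V₁ : ∀ c ∈ C₁, c ∈ V₁) (hC₁V₂ : ∀ c ∈ C₁, c ∈ V₂)
    (hC₂V₁ : ∀ c ∈ C₂, c ∈ V₁) (hC₂V₂ : ∀ c ∈ C₂, c ∈ V₂)
    (hjV₁ : j⁻¹ ∈ V₁) (hjV₂ : j⁻¹ ∈ V₂)
    (hsat₁ : ∀ y : F, y ∈ V₁ → y ∈ V₂ → ϖ • y ∈ C₁ → y ∈ C₁)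
    (hsat₂ : ∀ y : F, y ∈ V₁ → y ∈ V₂ → ϖ • y ∈ C₂ → y ∈ C₂)
    (hconst₁ : ∀ c₁ ∈ C₁, ∀ c₂ ∈ C₂, c₁ - c₂ ∈ V₁.nonunits →
      ∃ a : A₀, c₁ - algebraMap A₀ F a ∈ V₁.nonunits)
    (hconst₂ : ∀ c₁ ∈ C₁, ∀ c₂ ∈ C₂, c₁ - c₂ ∈ V₂.nonunits →
      ∃ a : A₀, c₁ - algebraMap A₀ F a ∈ V₂.nonunits)
    (hinter : ∀ c ∈ C₁, c ∈ C₂ → ∃ a : A₀, c = algebraMap A₀ F a)
    (τ : F ≃+* F) (hτC₁ : ∀ c : F, τ c ∈ C₁ ↔ c ∈ C₁) (hτC₂ : ∀ c : F, τ c ∈ C₂ ↔ c ∈ C₂)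
    (hτV₁ : ∀ y ∈ V₁, τ y ∈ V₁) (hτV₂ : ∀ y ∈ V₂, τ y ∈ V₂)
    (hτ1₁ : ∀ y ∈ V₁, τ y - y ∈ V₁.nonunits) (hτ1₂ : ∀ y ∈ V₂, τ y - y ∈ V₂.nonunits)
    (hτϖ : ∃ e : A₀ˣ, τ (algebraMap A₀ F ϖ) = algebraMap A₀ F (e * ϖ))
    (hval₁ : ∀ y : F, y ≠ 0 → τ y / y ∈ V₁ ∧ y / τ y ∈ V₁)
    (hval₂ : ∀ y : F, y ≠ 0 → τ y / y ∈ V₂ ∧ y / τ y ∈ V₂)
    (hA₁ : ∀ a : A₀, algebraMap A₀ F a ∈ V₁) (hA₂ : ∀ a : A₀, algebraMap A₀ F a ∈ V₂) :
    SemiGood ϖ m j C₁ C₂ (interAlg V₁ V₂ hA₁ hA₂) τ := by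
  have hϖ0 : algebraMap A₀ F ϖ ≠ 0 := fun h0 =>
    hϖ.ne_zero (FaithfulSMul.algebraMap_injective A₀ F (by rw [h0, map_zero]))
  have hdv : ∀ y : F, Dv ϖ (interAlg V₁ V₂ hA₁ hA₂) y ↔ y ∈ V₁.nonunits ∧ y ∈ V₂.nonunits :=
    fun y => dv_interAlg_iff hu₁ hu₂ hϖ0
  have hϖ₁ : algebraMap A₀ F ϖ ∈ V₁.nonunits :=
    (hu₁ _).2 ⟨1, V₁.one_mem, by rw [Algebra.smul_def, mul_one]⟩
  have hϖ₂ : algebraMap A₀ F ϖ ∈ V₂.nonunits :=
    (hu₂ _).2 ⟨1, V₂.one_mem, by rw [Algebra.smul_def, mul_one]⟩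
  have hle₁ : C₁ ≤ interAlg V₁ V₂ hA₁ hA₂ := fun c hc => ⟨hC₁V₁ c hc, hC₁V₂ c hc⟩
  have hle₂ : C₂ ≤ interAlg V₁ V₂ hA₁ hA₂ := fun c hc => ⟨hC₂V₁ c hc, hC₂V₂ c hc⟩
  have hs₁ : ∀ x ∈ interAlg V₁ V₂ hA₁ hA₂, ϖ • x ∈ C₁ → x ∈ C₁ :=
    fun y hy h => hsat₁ y hy.1 hy.2 h
  have hs₂ : ∀ x ∈ interAlg V₁ V₂ hA₁ hA₂, ϖ • x ∈ C₂ → x ∈ C₂ :=
    fun y hy h => hsat₂ y hy.1 hy.2 h
  refine
    { le₁ := hle₁
      le₂ := hle₂
      j_inv_mem := ⟨hjV₁, hjV₂⟩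
      not_unit := ?_
      root := fun z hz => ⟨mem_valuationSubring_of_pow_mem V₁ hm0 hz.1,
        mem_valuationSubring_of_pow_mem V₂ hm0 hz.2⟩
      sat₁ := hs₁
      sat₂ := hs₂
      const := ?_
      τ_mem₁ := hτC₁
      τ_mem₂ := hτC₂
      τ_mem := fun y hy => ⟨hτV₁ y hy.1, hτV₂ y hy.2⟩
      τ_sub := fun y hy => (hdv _).2 ⟨hτ1₁ y hy.1, hτ1₂ y hy.2⟩
      τ_unif := hτϖ
      τ_val := fun y hy => ⟨⟨(hval₁ y hy).1, (hval₂ y hy).1⟩, ⟨(hval₁ y hy).2, (hval₂ y hy).2⟩⟩ }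
  · intro h
    have h1 := ((hdv 1).1 h).1
    rw [ValuationSubring.mem_nonunits_iff, map_one] at h1
    exact lt_irrefl _ h1
  · refine Fermat.Agent.S34.H77.hconst_of_components ϖ hϖ j hj0 C₁ C₂ hj₁ hj₂ hfin₁ hglue
      (interAlg V₁ V₂ hA₁ hA₂) hle₁ hle₂ hs₁ hs₂ V₁ V₂ (fun x hx => hx.1) (fun x hx => hx.2)
      ((ValuationSubring.mem_nonunits_iff _).1 hϖ₁) ((ValuationSubring.mem_nonunits_iff _).1 hϖ₂)
      ?_ hinter ?_ ?_
    · intro x _ h1 h2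
      exact (hdv x).2 ⟨(ValuationSubring.mem_nonunits_iff _).2 h1,
        (ValuationSubring.mem_nonunits_iff _).2 h2⟩
    · intro c₁ hc₁ c₂ hc₂ h
      obtain ⟨a, ha⟩ := hconst₁ c₁ hc₁ c₂ hc₂ ((ValuationSubring.mem_nonunits_iff _).2 h)
      exact ⟨a, (ValuationSubring.mem_nonunits_iff _).1 ha⟩
    · intro c₁ hc₁ c₂ hc₂ h
      obtain ⟨a, ha⟩ := hconst₂ c₁ hc₁ c₂ hc₂ ((ValuationSubring.mem_nonunits_iff _).2 h)
      exact ⟨a, (ValuationSubring.mem_nonunits_iff _).1 ha⟩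


/-! ### Auxiliary lemmas for layer B -/

section Aux

open Fermat.Agent.S34.H7

variable {A₀ : Type*} [CommRing A₀] {F : Type*} [Field F] [Algebra A₀ F]

/-- Every nonzero element of `F` is a unit of `V` times an integral power of `ϖ`. -/
def HasScale (ϖ : A₀) (V : ValuationSubring F) : Prop :=
  ∀ y : F, y ≠ 0 → ∃ n : ℤ, IsU V (y / algebraMap A₀ F ϖ ^ n)

/-- A nonzero element is a unit of `V` iff its valuation is `1`. -/
theorem isU_iff_valuation_eq_one (V : ValuationSubring F) {z : F} (hz : z ≠ 0) :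
    IsU V z ↔ V.valuation z = 1 := by
  have hv0 : V.valuation z ≠ 0 := (Valuation.ne_zero_iff _).mpr hz
  rw [isU_iff, ← ValuationSubring.valuation_le_one_iff, ← ValuationSubring.valuation_le_one_iff,
    map_inv₀, inv_le_one₀ (zero_lt_iff.mpr hv0)]
  exact ⟨fun h => le_antisymm h.1 h.2, fun h => ⟨le_of_eq h, ge_of_eq h⟩⟩

/-- A ring endomorphism mapping `A₀` into itself and fixing `x` maps the chart of `x` into
itself. -/
theorem chart_map_mem (τ : F →+* F)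
    (hτA : ∀ a : A₀, ∃ a' : A₀, τ (algebraMap A₀ F a) = algebraMap A₀ F a') (x : F)
    (hτx : τ x = x) {c : F} (hc : c ∈ chart A₀ x) : τ c ∈ chart A₀ x := by
  rw [mem_chart_iff] at hc ⊢
  set B : Subalgebra A₀ F := Algebra.adjoin A₀ ({x} : Set F) with hB
  have hBmap : ∀ b ∈ B, τ b ∈ B := by
    intro b hb
    induction hb using Algebra.adjoin_induction with
    | mem z hz =>
      rw [Set.mem_singleton_iff] at hz
      rw [hz, hτx]
      exact Algebra.subset_adjoin rfl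
    | algebraMap a =>
      obtain ⟨a', ha'⟩ := hτA a
      rw [ha']
      exact Subalgebra.algebraMap_mem _ _
    | add z w _ _ hz hw =>
      rw [map_add]
      exact add_mem hz hw
    | mul z w _ _ hz hw =>
      rw [map_mul]
      exact mul_mem hz hw
  set φ : B →+* B := (τ.comp B.val.toRingHom).codRestrict B (fun b => hBmap b b.2) with hφ
  exact hc.map_of_comp_eq φ τ (RingHom.ext fun b => rfl)

/-- The chart of `x` is stable under a ring automorphism mapping `A₀` onto itself and fixing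
`x`. -/
theorem chart_equiv_mem_iff (τ : F ≃+* F)
    (hτA : ∀ a : A₀, ∃ a' : A₀, τ (algebraMap A₀ F a) = algebraMap A₀ F a')
    (hτA' : ∀ a : A₀, ∃ a' : A₀, τ.symm (algebraMap A₀ F a) = algebraMap A₀ F a') (x : F)
    (hτx : τ x = x) (c : F) : τ c ∈ chart A₀ x ↔ c ∈ chart A₀ x := by
  constructor
  · intro h
    have hx' : (τ.symm : F →+* F) x = x := by
      rw [RingHom.coe_coe, RingEquiv.symm_apply_eq, hτx]
    have h1 := chart_map_mem (τ.symm : F →+* F) hτA' x hx' h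
    rwa [RingHom.coe_coe, RingEquiv.symm_apply_apply] at h1
  · intro h
    exact chart_map_mem (τ : F →+* F) hτA x hτx h

/-- An automorphism mapping the discrete valuation ring `A₀` onto itself multiplies a uniformiser
by a unit. -/
theorem exists_unit_mul_of_semilinear [IsDomain A₀] [IsDiscreteValuationRing A₀]
    [FaithfulSMul A₀ F] (ϖ : A₀) (hϖ : Irreducible ϖ) (τ : F ≃+* F)
    (hτA : ∀ a : A₀, ∃ a' : A₀, τ (algebraMap A₀ F a) = algebraMap A₀ F a')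
    (hτA' : ∀ a : A₀, ∃ a' : A₀, τ.symm (algebraMap A₀ F a) = algebraMap A₀ F a') :
    ∃ e : A₀ˣ, τ (algebraMap A₀ F ϖ) = algebraMap A₀ F (e * ϖ) := by
  have hinj := FaithfulSMul.algebraMap_injective A₀ F
  choose σ hσ using hτA
  choose ρ hρ using hτA'
  have hσρ : ∀ a, σ (ρ a) = a := fun a =>
    hinj (by rw [← hσ, ← hρ, RingEquiv.apply_symm_apply])
  have hρσ : ∀ a, ρ (σ a) = a := fun a =>
    hinj (by rw [← hρ, ← hσ, RingEquiv.symm_apply_apply])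
  have hσmul : ∀ a b, σ (a * b) = σ a * σ b := fun a b =>
    hinj (by rw [← hσ, map_mul, map_mul, map_mul, hσ, hσ])
  let σe : A₀ ≃* A₀ :=
    { toFun := σ, invFun := ρ, left_inv := hρσ, right_inv := hσρ, map_mul' := hσmul }
  have hirr : Irreducible (σ ϖ) := (MulEquiv.irreducible_iff σe).mpr hϖ
  obtain ⟨e, he⟩ := IsDiscreteValuationRing.associated_of_irreducible A₀ hϖ hirr
  exact ⟨e, by rw [hσ, ← he, mul_comm]⟩

/-- The `ϖ`-adic scale of the Gauss ring of a `DSetup`. -/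
theorem hasScale_of_dsetup [IsDomain A₀] [IsDiscreteValuationRing A₀] {ϖ : A₀}
    (hϖ : Irreducible ϖ) {O₀ : ValuationSubring F} {x : F} (hS : DSetup A₀ O₀ x) :
    HasScale ϖ O₀ := by
  intro f hf
  obtain ⟨a, b, ha, hb, h1, h2⟩ := hS.scale f hf
  obtain ⟨na, ua, rfl⟩ := IsDiscreteValuationRing.eq_unit_mul_pow_irreducible ha hϖ
  obtain ⟨nb, ub, rfl⟩ := IsDiscreteValuationRing.eq_unit_mul_pow_irreducible hb hϖ
  have hπ0 : algebraMap A₀ F ϖ ≠ 0 := H80.ds_algebraMap_ne_zero hS hϖ.ne_zero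
  have hU : ∀ u : A₀ˣ, IsU O₀ (algebraMap A₀ F (u : A₀)) := by
    intro u
    refine ⟨H80.ds_algebraMap_mem hS _, ?_⟩
    have h : algebraMap A₀ F (u : A₀) * algebraMap A₀ F ((u⁻¹ : A₀ˣ) : A₀) = 1 := by
      rw [← map_mul, Units.mul_inv, map_one]
    rw [inv_eq_of_mul_eq_one_right h]
    exact H80.ds_algebraMap_mem hS _
  have hu0 : ∀ u : A₀ˣ, algebraMap A₀ F (u : A₀) ≠ 0 := fun u =>
    H80.ds_algebraMap_ne_zero hS u.ne_zero
  refine ⟨(nb : ℤ) - na, ?_⟩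
  have e : f / algebraMap A₀ F ϖ ^ ((nb : ℤ) - na)
      = (algebraMap A₀ F (ua * ϖ ^ na) / algebraMap A₀ F (ub * ϖ ^ nb) * f)
        * (algebraMap A₀ F ub / algebraMap A₀ F ua) := by
    have h3 := hu0 ua
    have h4 := hu0 ub
    rw [zpow_sub₀ hπ0, zpow_natCast, zpow_natCast, map_mul, map_mul, map_pow, map_pow]
    field_simp
  rw [e]
  exact IsU.mul ⟨h1, h2⟩ ((hU ub).div (hU ua))

/-- With a `ϖ`-adic scale, `ϖ` generates the maximal ideal. -/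
theorem div_mem_of_hasScale {ϖ : A₀} {V : ValuationSubring F} (hsc : HasScale ϖ V)
    (hπ : algebraMap A₀ F ϖ ∈ V) {a : F} (ha : a ∈ V.nonunits) :
    a / algebraMap A₀ F ϖ ∈ V := by
  by_cases ha0 : a = 0
  · rw [ha0, zero_div]
    exact V.zero_mem
  by_cases hπ0 : algebraMap A₀ F ϖ = 0
  · rw [hπ0, div_zero]
    exact V.zero_mem
  obtain ⟨n, hn⟩ := hsc a ha0
  have hn1 : 1 ≤ n := by
    by_contra hlt
    obtain ⟨k, hk⟩ := Int.eq_ofNat_of_zero_le (by omega : 0 ≤ -n)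
    have hnk : n = -(k : ℤ) := by omega
    have hinv : a⁻¹ ∈ V := by
      have e : a⁻¹ = (a / algebraMap A₀ F ϖ ^ n)⁻¹ * algebraMap A₀ F ϖ ^ k := by
        rw [hnk, zpow_neg, zpow_natCast]
        field_simp
      rw [e]
      exact V.mul_mem _ _ hn.2 (pow_mem hπ k)
    exact ((ValuationSubring.mem_nonunits_iff_or _).1 ha).resolve_left ha0 hinv
  obtain ⟨k, hk⟩ := Int.eq_ofNat_of_zero_le (by omega : 0 ≤ n - 1)
  have hnk : n = (k : ℤ) + 1 := by omega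
  have e : a / algebraMap A₀ F ϖ = (a / algebraMap A₀ F ϖ ^ n) * algebraMap A₀ F ϖ ^ k := by
    rw [hnk, zpow_add_one₀ hπ0, zpow_natCast]
    field_simp
  rw [e]
  exact V.mul_mem _ _ hn.1 (pow_mem hπ k)

end Aux

section AuxUp

open Fermat.Agent.S34.H7

variable {A₀ : Type*} [CommRing A₀] {K L : Type*} [Field K] [Field L]
  [Algebra A₀ K] [Algebra A₀ L] [Algebra K L] [IsScalarTower A₀ K L]

/-- **The value group does not grow** ((O3)): `V` a valuation subring of the algebraic extension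
`L` of `K` lying over `O₀`, whose maximal ideal is generated by `ϖ`.  If `O₀` has the `ϖ`-adic
scale, so has `V`. -/
theorem hasScale_top [Algebra.IsAlgebraic K L] {ϖ : A₀} (hπ0 : algebraMap A₀ K ϖ ≠ 0)
    (O₀ : ValuationSubring K) (V : ValuationSubring L)
    (hcomap : ∀ v : K, algebraMap K L v ∈ V ↔ v ∈ O₀) (hsc₀ : HasScale ϖ O₀)
    (hπV : algebraMap A₀ L ϖ ∈ V.nonunits)
    (hgen : ∀ g ∈ V.nonunits, g / algebraMap A₀ L ϖ ∈ V) : HasScale ϖ V := by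
  classical
  have hπL : algebraMap K L (algebraMap A₀ K ϖ) = algebraMap A₀ L ϖ :=
    (IsScalarTower.algebraMap_apply A₀ K L ϖ).symm
  have hπL0 : algebraMap A₀ L ϖ ≠ 0 := by
    rw [← hπL]
    exact (map_ne_zero_iff _ (algebraMap K L).injective).mpr hπ0
  set v := V.valuation with hv
  set p := v (algebraMap A₀ L ϖ) with hp
  have hp0 : p ≠ 0 := (Valuation.ne_zero_iff _).mpr hπL0
  have hp1 : p < 1 := (ValuationSubring.mem_nonunits_iff _).1 hπV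
  -- (i) the valuation of an element of `K`
  have hK : ∀ c : K, c ≠ 0 → ∃ n : ℤ, v (algebraMap K L c) = p ^ n := by
    intro c hc
    obtain ⟨n, hn⟩ := hsc₀ c hc
    refine ⟨n, ?_⟩
    have h1 : IsU V (algebraMap K L (c / algebraMap A₀ K ϖ ^ n)) :=
      ⟨(hcomap _).mpr hn.1, by rw [← map_inv₀]; exact (hcomap _).mpr hn.2⟩
    have hne : algebraMap K L (c / algebraMap A₀ K ϖ ^ n) ≠ 0 :=
      (map_ne_zero_iff _ (algebraMap K L).injective).mpr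
        (div_ne_zero hc (zpow_ne_zero _ hπ0))
    have h2 := (isU_iff_valuation_eq_one V hne).1 h1
    rw [map_div₀, map_zpow₀, hπL, map_div₀, map_zpow₀, ← hv, ← hp,
      div_eq_one_iff_eq (zpow_ne_zero _ hp0)] at h2
    exact h2
  intro y hy
  have hvy0 : v y ≠ 0 := (Valuation.ne_zero_iff _).mpr hy
  -- (ii) a power of `v y` is a power of `p`
  have hpow : ∃ d : ℕ, 0 < d ∧ ∃ N : ℤ, v y ^ d = p ^ N := by
    have hyK : IsIntegral K y := (Algebra.IsAlgebraic.isAlgebraic y).isIntegral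
    set P := minpoly K y with hP
    have hP0 : P ≠ 0 := minpoly.ne_zero hyK
    have hsum : ∑ i ∈ P.support, algebraMap K L (P.coeff i) * y ^ i = 0 := by
      have h := minpoly.aeval K y
      rw [aeval_def, eval₂_eq_sum, sum_def] at h
      exact h
    have hf0 : ∀ i ∈ P.support, v (algebraMap K L (P.coeff i) * y ^ i) ≠ 0 := by
      intro i hi
      refine (Valuation.ne_zero_iff _).mpr (mul_ne_zero ?_ (pow_ne_zero _ hy))
      exact (map_ne_zero_iff _ (algebraMap K L).injective).mpr (mem_support_iff.mp hi)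
    obtain ⟨i₀, hi₀, hmax⟩ := Finset.exists_max_image P.support
      (fun i => v (algebraMap K L (P.coeff i) * y ^ i)) (support_nonempty.mpr hP0)
    have hex : ∃ i₁ ∈ P.support, i₁ ≠ i₀ ∧
        v (algebraMap K L (P.coeff i₁) * y ^ i₁) = v (algebraMap K L (P.coeff i₀) * y ^ i₀) := by
      by_contra hcon
      push Not at hcon
      have hlt : ∀ i ∈ P.support \ {i₀},
          v (algebraMap K L (P.coeff i) * y ^ i) < v (algebraMap K L (P.coeff i₀) * y ^ i₀) := by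
        intro i hi
        rw [Finset.mem_sdiff, Finset.mem_singleton] at hi
        exact lt_of_le_of_ne (hmax i hi.1) (hcon i hi.1 hi.2)
      have h := Valuation.map_sum_eq_of_lt v hi₀ hlt
      rw [hsum, map_zero] at h
      exact hf0 i₀ hi₀ h.symm
    obtain ⟨i₁, hi₁, hne, heq⟩ := hex
    obtain ⟨n₀, hn₀⟩ := hK (P.coeff i₀) (mem_support_iff.mp hi₀)
    obtain ⟨n₁, hn₁⟩ := hK (P.coeff i₁) (mem_support_iff.mp hi₁)
    rw [map_mul, map_mul, map_pow, map_pow, hn₀, hn₁] at heq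
    -- the two exponents are different
    have key : ∀ (a b : ℕ) (na nb : ℤ), a < b → p ^ na * v y ^ a = p ^ nb * v y ^ b →
        ∃ d : ℕ, 0 < d ∧ ∃ N : ℤ, v y ^ d = p ^ N := by
      intro a b na nb hab h
      refine ⟨b - a, Nat.sub_pos_of_lt hab, na - nb, ?_⟩
      have hb : v y ^ b = v y ^ a * v y ^ (b - a) := by
        rw [← pow_add, Nat.add_sub_cancel' hab.le]
      rw [hb] at h
      have h2 : p ^ na = p ^ nb * v y ^ (b - a) := by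
        have h3 : v y ^ a * p ^ na = v y ^ a * (p ^ nb * v y ^ (b - a)) := by
          rw [mul_comm, h, mul_left_comm]
        exact mul_left_cancel₀ (pow_ne_zero a hvy0) h3
      rw [zpow_sub₀ hp0, h2]
      exact (mul_div_cancel_left₀ _ (zpow_ne_zero _ hp0)).symm
    rcases lt_or_gt_of_ne hne with h | h
    · exact key i₁ i₀ n₁ n₀ h heq
    · exact key i₀ i₁ n₀ n₁ h heq.symm
  obtain ⟨d, hd, N, hN⟩ := hpow
  have hd' : (d : ℤ) ≠ 0 := by exact_mod_cast hd.ne'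
  have hr0 : 0 ≤ N % d := Int.emod_nonneg _ hd'
  have hrd : N % d < d := Int.emod_lt_of_pos _ (by exact_mod_cast hd)
  have hdiv : (d : ℤ) * (N / d) + N % d = N := Int.mul_ediv_add_emod N d
  obtain ⟨r, hr⟩ := Int.eq_ofNat_of_zero_le hr0
  have hrd' : r < d := by
    rw [hr] at hrd
    exact_mod_cast hrd
  set s : ℤ := N / d with hs
  set z : L := y / algebraMap A₀ L ϖ ^ s with hz
  have hz0 : z ≠ 0 := div_ne_zero hy (zpow_ne_zero _ hπL0)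
  -- `v z ^ d = p ^ r`
  have hzd : v z ^ d = p ^ r := by
    have h1 : v z = v y / p ^ s := by rw [hz, map_div₀, map_zpow₀]
    have h2 : (p ^ s) ^ d = p ^ (s * d) := by rw [← zpow_natCast, ← zpow_mul]
    have h3 : N = s * d + r := by
      rw [← hr]
      linarith
    rw [h1, div_pow, hN, h2, h3, zpow_add₀ hp0, zpow_natCast]
    exact mul_div_cancel_left₀ _ (zpow_ne_zero _ hp0)
  refine ⟨s, ?_⟩
  rw [isU_iff_valuation_eq_one V hz0]
  by_cases hr0' : r = 0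
  · rw [hr0', pow_zero] at hzd
    exact le_antisymm ((pow_le_one_iff hd.ne').1 (le_of_eq hzd))
      ((one_le_pow_iff hd.ne').1 (ge_of_eq hzd))
  · exfalso
    have h1 : v z ^ d < 1 := by
      rw [hzd]
      exact pow_lt_one₀ zero_le hp1 hr0'
    have h2 : v z < 1 := by
      by_contra hge
      push Not at hge
      exact absurd ((one_le_pow_iff hd.ne').2 hge) (not_le.mpr h1)
    have h3 : z / algebraMap A₀ L ϖ ∈ V := hgen z ((ValuationSubring.mem_nonunits_iff _).2 h2)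
    rw [← ValuationSubring.valuation_le_one_iff, map_div₀, ← hv, ← hp,
      div_le_one₀ (zero_lt_iff.mpr hp0)] at h3
    have h4 : v z ^ d ≤ p ^ d := pow_le_pow_left₀ zero_le h3 d
    have h5 : p ^ d < p ^ r := pow_lt_pow_right_of_lt_one₀ (zero_lt_iff.mpr hp0) hp1 hrd'
    rw [hzd] at h4
    exact absurd h4 (not_le.mpr h5)

end AuxUp

section AuxVal

open Fermat.Agent.S34.H7

variable {A₀ : Type*} [CommRing A₀] {F : Type*} [Field F] [Algebra A₀ F]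

/-- **An automorphism preserving `V` preserves its valuation** ((O4)), for a valuation subring
with the `ϖ`-adic scale, when `τ ϖ = e ϖ` with `e` a unit of `A₀`. -/
theorem val_of_hasScale {ϖ : A₀} (V : ValuationSubring F) (hA : ∀ a : A₀, algebraMap A₀ F a ∈ V)
    (hsc : HasScale ϖ V) (hπ0 : algebraMap A₀ F ϖ ≠ 0) (τ : F ≃+* F)
    (hτV : ∀ y : F, τ y ∈ V ↔ y ∈ V)
    (hτϖ : ∃ e : A₀ˣ, τ (algebraMap A₀ F ϖ) = algebraMap A₀ F (e * ϖ)) :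
    ∀ y : F, y ≠ 0 → τ y / y ∈ V ∧ y / τ y ∈ V := by
  obtain ⟨e, he⟩ := hτϖ
  have hU : IsU V (algebraMap A₀ F (e : A₀)) := by
    refine ⟨hA _, ?_⟩
    have h : algebraMap A₀ F (e : A₀) * algebraMap A₀ F ((e⁻¹ : A₀ˣ) : A₀) = 1 := by
      rw [← map_mul, Units.mul_inv, map_one]
    rw [inv_eq_of_mul_eq_one_right h]
    exact hA _
  have he0 : algebraMap A₀ F (e : A₀) ≠ 0 := by
    intro h0
    have h : algebraMap A₀ F (e : A₀) * algebraMap A₀ F ((e⁻¹ : A₀ˣ) : A₀) = 1 := by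
      rw [← map_mul, Units.mul_inv, map_one]
    rw [h0, zero_mul] at h
    exact zero_ne_one h
  -- `τ` preserves the units of `V`
  have hτU : ∀ ε : F, IsU V ε → IsU V (τ ε) := fun ε hε =>
    ⟨(hτV ε).mpr hε.1, by rw [← map_inv₀]; exact (hτV _).mpr hε.2⟩
  have key : ∀ y : F, y ≠ 0 → IsU V (τ y / y) := by
    intro y hy
    obtain ⟨n, hn⟩ := hsc y hy
    have hε0 : y / algebraMap A₀ F ϖ ^ n ≠ 0 := div_ne_zero hy (zpow_ne_zero _ hπ0)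
    have e1 : τ y / y = τ (y / algebraMap A₀ F ϖ ^ n) / (y / algebraMap A₀ F ϖ ^ n)
        * algebraMap A₀ F (e : A₀) ^ n := by
      have h1 : τ (y / algebraMap A₀ F ϖ ^ n)
          = τ y / (algebraMap A₀ F (e : A₀) * algebraMap A₀ F ϖ) ^ n := by
        rw [map_div₀, map_zpow₀, he, map_mul]
      have hπn : algebraMap A₀ F ϖ ^ n ≠ 0 := zpow_ne_zero _ hπ0
      have hen : algebraMap A₀ F (e : A₀) ^ n ≠ 0 := zpow_ne_zero _ he0
      rw [h1, mul_zpow]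
      field_simp
    rw [e1]
    exact ((hτU _ hn).div hn).mul (hU.zpow n)
  intro y hy
  have h := key y hy
  refine ⟨h.1, ?_⟩
  have h2 := h.2
  rwa [inv_div] at h2

end AuxVal

/-- **(M3), layer B′: the semi-local fields of `Good` from the level below**, with the constants
of the second component as a hypothesis (`hCC₂`).

`K ⊆ L` (in the application `K = F_{M',K₀}`, `L = F_{qM',K₀}` along `α`), `x ∈ K` the
coordinate, `O₀` the Gauss ring of `K` (`DSetup` for `x` and `x⁻¹`), `V₁`, `V₂` the two valuation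
subrings of `L` over `O₀` (`TwoExt`), and `τ` an automorphism of `L` mapping `A₀` onto itself,
fixing `j = α(x)`, preserving `V₁`, `V₂` and acting trivially on their residue fields. -/
theorem semiGood_of_dsetup'
    {A₀ : Type*} [CommRing A₀] [IsDomain A₀] [IsDiscreteValuationRing A₀] [CharZero A₀]
    {K L : Type*} [Field K] [Field L] [Algebra A₀ K] [Algebra A₀ L] [Algebra K L]
    [IsScalarTower A₀ K L] [FaithfulSMul A₀ K] [Algebra.IsAlgebraic K L]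
    (ϖ : A₀) (hϖ : Irreducible ϖ) (m : ℕ) (hm0 : m ≠ 0)
    (O₀ : ValuationSubring K) (x : K) (hS : DSetup A₀ O₀ x) (hS' : DSetup A₀ O₀ x⁻¹)
    (V₁ V₂ : ValuationSubring L)
    (hc₁ : ∀ v : K, algebraMap K L v ∈ V₁ ↔ v ∈ O₀)
    (hc₂ : ∀ v : K, algebraMap K L v ∈ V₂ ↔ v ∈ O₀)
    (hT : Fermat.Agent.S34.H64.TwoExt O₀ V₁ V₂)
    (hCC₂ : ConstClause A₀ V₂)
    (hfin₁ : ∃ s : Finset L, (chart A₀ (algebraMap K L x) : Set L) =
      Submodule.span (Algebra.adjoin A₀ ({algebraMap K L x} : Set L)) (s : Set L))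
    (hinter : ∀ c ∈ chart A₀ (algebraMap K L x), c ∈ chart A₀ (algebraMap K L x)⁻¹ →
      ∃ a : A₀, c = algebraMap A₀ L a)
    (τ : L ≃+* L) (hτA : ∀ a : A₀, ∃ a' : A₀, τ (algebraMap A₀ L a) = algebraMap A₀ L a')
    (hτA' : ∀ a : A₀, ∃ a' : A₀, τ.symm (algebraMap A₀ L a) = algebraMap A₀ L a')
    (hτj : τ (algebraMap K L x) = algebraMap K L x)
    (hτV₁ : ∀ y : L, τ y ∈ V₁ ↔ y ∈ V₁) (hτV₂ : ∀ y : L, τ y ∈ V₂ ↔ y ∈ V₂)
    (hτ1₁ : ∀ y ∈ V₁, τ y - y ∈ V₁.nonunits) (hτ1₂ : ∀ y ∈ V₂, τ y - y ∈ V₂.nonunits) :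
    ∃ O : Subalgebra A₀ L, (∀ y : L, y ∈ O ↔ y ∈ V₁ ∧ y ∈ V₂) ∧
      SemiGood ϖ m (algebraMap K L x) (chart A₀ (algebraMap K L x))
        (chart A₀ (algebraMap K L x)⁻¹) O τ := by
  classical
  have hinjK := FaithfulSMul.algebraMap_injective A₀ K
  haveI : FaithfulSMul A₀ L := by
    rw [faithfulSMul_iff_algebraMap_injective, IsScalarTower.algebraMap_eq A₀ K L]
    exact (algebraMap K L).injective.comp hinjK
  have hπ0 : algebraMap A₀ K ϖ ≠ 0 := H80.ds_algebraMap_ne_zero hS hϖ.ne_zero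
  have hπL : algebraMap K L (algebraMap A₀ K ϖ) = algebraMap A₀ L ϖ :=
    (IsScalarTower.algebraMap_apply A₀ K L ϖ).symm
  have hπL0 : algebraMap A₀ L ϖ ≠ 0 := by
    rw [← hπL]
    exact (map_ne_zero_iff _ (algebraMap K L).injective).mpr hπ0
  -- the level below
  have hA : ∀ a : A₀, algebraMap A₀ K a ∈ O₀ := H80.ds_algebraMap_mem hS
  obtain ⟨hx, hx'⟩ := H72.self_mem_of_dsetup hS
  have hx0 : x ≠ 0 := by
    rintro rfl
    exact hS.transc isAlgebraic_zero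
  have hπm : algebraMap A₀ K ϖ ∈ O₀.nonunits := H80.ds_unif_mem_nonunits hϖ hS
  have hsc₀ : HasScale ϖ O₀ := hasScale_of_dsetup hϖ hS
  have hgen₀ : ∀ a ∈ O₀.nonunits, a / algebraMap A₀ K ϖ ∈ O₀ :=
    fun a ha => div_mem_of_hasScale hsc₀ (hA ϖ) ha
  -- the top level
  have hj0 : algebraMap K L x ≠ 0 := (map_ne_zero_iff _ (algebraMap K L).injective).mpr hx0
  have hA₁ : ∀ a : A₀, algebraMap A₀ L a ∈ V₁ := fun a => by
    rw [IsScalarTower.algebraMap_apply A₀ K L]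
    exact (hc₁ _).mpr (hA a)
  have hA₂ : ∀ a : A₀, algebraMap A₀ L a ∈ V₂ := fun a => by
    rw [IsScalarTower.algebraMap_apply A₀ K L]
    exact (hc₂ _).mpr (hA a)
  have hjV₁ : algebraMap K L x ∈ V₁ := (hc₁ x).mpr hx
  have hjV₂ : algebraMap K L x ∈ V₂ := (hc₂ x).mpr hx
  have hjV₁' : (algebraMap K L x)⁻¹ ∈ V₁ := by
    rw [← map_inv₀]
    exact (hc₁ _).mpr hx'
  have hjV₂' : (algebraMap K L x)⁻¹ ∈ V₂ := by
    rw [← map_inv₀]
    exact (hc₂ _).mpr hx'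
  have hπV₁ : algebraMap A₀ L ϖ ∈ V₁.nonunits := by
    rw [← hπL]
    exact (algebraMap_mem_nonunits_iff O₀ V₁ hc₁ _).mpr hπm
  have hπV₂ : algebraMap A₀ L ϖ ∈ V₂.nonunits := by
    rw [← hπL]
    exact (algebraMap_mem_nonunits_iff O₀ V₂ hc₂ _).mpr hπm
  have hgen₁ : ∀ g ∈ V₁.nonunits, g / algebraMap A₀ L ϖ ∈ V₁ := by
    intro g hg
    rw [← hπL]
    exact hT.unif₁ _ hπm hgen₀ g hg
  have hgen₂ : ∀ g ∈ V₂.nonunits, g / algebraMap A₀ L ϖ ∈ V₂ := by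
    intro g hg
    rw [← hπL]
    exact hT.unif₂ _ hπm hgen₀ g hg
  have hunif : ∀ V : ValuationSubring L, algebraMap A₀ L ϖ ∈ V.nonunits →
      (∀ g ∈ V.nonunits, g / algebraMap A₀ L ϖ ∈ V) → IsUnif ϖ V := by
    intro V hπV hgen y
    constructor
    · intro hy
      refine ⟨y / algebraMap A₀ L ϖ, hgen y hy, ?_⟩
      rw [Algebra.smul_def, mul_div_cancel₀ _ hπL0]
    · rintro ⟨d, hd, rfl⟩
      rw [Algebra.smul_def]
      exact H80.ds_mul_mem_nonunits hπV hd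
  have hu₁ : IsUnif ϖ V₁ := hunif V₁ hπV₁ hgen₁
  have hu₂ : IsUnif ϖ V₂ := hunif V₂ hπV₂ hgen₂
  have hsc₁ : HasScale ϖ V₁ := hasScale_top hπ0 O₀ V₁ hc₁ hsc₀ hπV₁ hgen₁
  have hsc₂ : HasScale ϖ V₂ := hasScale_top hπ0 O₀ V₂ hc₂ hsc₀ hπV₂ hgen₂
  -- the charts lie in both valuation subrings
  have hC₁V₁ := H72.chart_subset_valuationSubring V₁ hA₁ hjV₁
  have hC₁V₂ := H72.chart_subset_valuationSubring V₂ hA₂ hjV₂
  have hC₂V₁ := H72.chart_subset_valuationSubring V₁ hA₁ hjV₁'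
  have hC₂V₂ := H72.chart_subset_valuationSubring V₂ hA₂ hjV₂'
  -- saturation
  haveI : IsIntegrallyClosed ↥(chart A₀ x) := H95.chart_isIntegrallyClosed' x
  haveI : IsIntegrallyClosed ↥(chart A₀ x⁻¹) := H95.chart_isIntegrallyClosed' x⁻¹
  have hint : ∀ y : L, y ∈ V₁ → y ∈ V₂ → IsIntegral ↥O₀ y :=
    fun y h1 h2 => (hT.integral_iff y).mpr ⟨h1, h2⟩
  have hsat₁ : ∀ y : L, y ∈ V₁ → y ∈ V₂ → ϖ • y ∈ chart A₀ (algebraMap K L x) →
      y ∈ chart A₀ (algebraMap K L x) :=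
    chart_sat_top ϖ hπ0 x (H95.chart_frac O₀ x hS) O₀ hA (H6.chart_sat ϖ hϖ O₀ x hS) V₁ V₂ hint
  have hsat₂ : ∀ y : L, y ∈ V₁ → y ∈ V₂ → ϖ • y ∈ chart A₀ (algebraMap K L x)⁻¹ →
      y ∈ chart A₀ (algebraMap K L x)⁻¹ := by
    have h := chart_sat_top ϖ hπ0 x⁻¹ (H95.chart_frac O₀ x⁻¹ hS') O₀ hA
      (H6.chart_sat ϖ hϖ O₀ x⁻¹ hS') V₁ V₂ hint
    rwa [map_inv₀] at h
  -- constants on each component
  have hCC₁ : ConstClause A₀ V₁ := constClause_of_res O₀ V₁ hc₁ hT.res₁ hA hS.const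
  have hconst₁ := hk_of_const V₁ hA₁ (algebraMap K L x) hjV₁ hjV₁' hj0 hCC₁
  have hconst₂ := hk_of_const V₂ hA₂ (algebraMap K L x) hjV₂ hjV₂' hj0 hCC₂
  -- the automorphism
  have hτϖ := exists_unit_mul_of_semilinear ϖ hϖ τ hτA hτA'
  have hτj' : τ (algebraMap K L x)⁻¹ = (algebraMap K L x)⁻¹ := by rw [map_inv₀, hτj]
  refine ⟨interAlg V₁ V₂ hA₁ hA₂, fun y => Iff.rfl, ?_⟩
  exact semiGood_of_two ϖ hϖ m hm0 (algebraMap K L x) hj0 (chart A₀ (algebraMap K L x))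
    (chart A₀ (algebraMap K L x)⁻¹) (self_mem_chart A₀ _) (self_mem_chart A₀ _) hfin₁
    (H92.chart_glue (algebraMap K L x) hj0) V₁ V₂ hu₁ hu₂ hC₁V₁ hC₁V₂ hC₂V₁ hC₂V₂ hjV₁' hjV₂'
    hsat₁ hsat₂ hconst₁ hconst₂ hinter τ
    (chart_equiv_mem_iff τ hτA hτA' (algebraMap K L x) hτj)
    (chart_equiv_mem_iff τ hτA hτA' (algebraMap K L x)⁻¹ hτj')
    (fun y hy => (hτV₁ y).mpr hy) (fun y hy => (hτV₂ y).mpr hy) hτ1₁ hτ1₂ hτϖ
    (val_of_hasScale V₁ hA₁ hsc₁ hπL0 τ hτV₁ hτϖ) (val_of_hasScale V₂ hA₂ hsc₂ hπL0 τ hτV₂ hτϖ)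
    hA₁ hA₂

/-- **(M3), layer B: the semi-local fields of `Good` from the level below.**

`K ⊆ L` (in the application `K = F_{M',K₀}`, `L = F_{qM',K₀}` along `α`), `x ∈ K` the
coordinate, `O₀` the Gauss ring of `K` (`DSetup` for `x` and `x⁻¹`), `V₁`, `V₂` the two valuation
subrings of `L` over `O₀` (`TwoExt`), `w` an automorphism of `L` over `A₀` with `V₂ = w⁻¹ V₁`,
and `τ` an automorphism of `L` mapping `A₀` onto itself, fixing `j = α(x)`, preserving `V₁`,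
`V₂` and acting trivially on their residue fields. -/
theorem semiGood_of_dsetup
    {A₀ : Type*} [CommRing A₀] [IsDomain A₀] [IsDiscreteValuationRing A₀] [CharZero A₀]
    {K L : Type*} [Field K] [Field L] [Algebra A₀ K] [Algebra A₀ L] [Algebra K L]
    [IsScalarTower A₀ K L] [FaithfulSMul A₀ K] [Algebra.IsAlgebraic K L]
    (ϖ : A₀) (hϖ : Irreducible ϖ) (m : ℕ) (hm0 : m ≠ 0)
    (O₀ : ValuationSubring K) (x : K) (hS : DSetup A₀ O₀ x) (hS' : DSetup A₀ O₀ x⁻¹)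
    (V₁ V₂ : ValuationSubring L)
    (hc₁ : ∀ v : K, algebraMap K L v ∈ V₁ ↔ v ∈ O₀)
    (hc₂ : ∀ v : K, algebraMap K L v ∈ V₂ ↔ v ∈ O₀)
    (hT : Fermat.Agent.S34.H64.TwoExt O₀ V₁ V₂)
    (w : L ≃+* L) (hwA : ∀ a : A₀, w (algebraMap A₀ L a) = algebraMap A₀ L a)
    (hwV : ∀ g : L, g ∈ V₂ ↔ w g ∈ V₁)
    (hfin₁ : ∃ s : Finset L, (chart A₀ (algebraMap K L x) : Set L) =
      Submodule.span (Algebra.adjoin A₀ ({algebraMap K L x} : Set L)) (s : Set L))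
    (hinter : ∀ c ∈ chart A₀ (algebraMap K L x), c ∈ chart A₀ (algebraMap K L x)⁻¹ →
      ∃ a : A₀, c = algebraMap A₀ L a)
    (τ : L ≃+* L) (hτA : ∀ a : A₀, ∃ a' : A₀, τ (algebraMap A₀ L a) = algebraMap A₀ L a')
    (hτA' : ∀ a : A₀, ∃ a' : A₀, τ.symm (algebraMap A₀ L a) = algebraMap A₀ L a')
    (hτj : τ (algebraMap K L x) = algebraMap K L x)
    (hτV₁ : ∀ y : L, τ y ∈ V₁ ↔ y ∈ V₁) (hτV₂ : ∀ y : L, τ y ∈ V₂ ↔ y ∈ V₂)
    (hτ1₁ : ∀ y ∈ V₁, τ y - y ∈ V₁.nonunits) (hτ1₂ : ∀ y ∈ V₂, τ y - y ∈ V₂.nonunits) :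
    ∃ O : Subalgebra A₀ L, (∀ y : L, y ∈ O ↔ y ∈ V₁ ∧ y ∈ V₂) ∧
      SemiGood ϖ m (algebraMap K L x) (chart A₀ (algebraMap K L x))
        (chart A₀ (algebraMap K L x)⁻¹) O τ := by
  have hCC₁ : ConstClause A₀ V₁ :=
    constClause_of_res O₀ V₁ hc₁ hT.res₁ (H80.ds_algebraMap_mem hS) hS.const
  have hCC₂ : ConstClause A₀ V₂ := by
    have e : V₂ = V₁.comap (w : L →+* L) := by
      ext g
      rw [ValuationSubring.mem_comap]
      exact hwV g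
    rw [e]
    exact constClause_comap V₁ w hwA hCC₁
  exact semiGood_of_dsetup' ϖ hϖ m hm0 O₀ x hS hS' V₁ V₂ hc₁ hc₂ hT hCC₂ hfin₁ hinter τ hτA hτA'
    hτj hτV₁ hτV₂ hτ1₁ hτ1₂

end Fermat.Agent.S34.H10
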