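/-
Program B' (S34), leaf (M3) of helper30's model `S34/H30/Model.lean` (helper10): the fields of
`H30.VData.Good` which concern the two valuation subrings `V₁`, `V₂`, in the two-valuation
vocabulary of `VData`.

* `VGood ϖ j C₁ C₂ V₁ V₂` : the fields `unif₁ unif₂ le₁₁ le₁₂ le₂₁ le₂₂ j_inv₁ j_inv₂ sat₁ sat₂
  const₁ const₂` of `VData.Good`, VERBATIM (plus the `ϖ`-adic scale of `V₁`, `V₂`);
* `VTau ϖ C₁ C₂ V₁ V₂ τ₀` : the fields `τ_mem₁ τ_mem₂ τ_V₁ τ_V₂ τ_sub₁ τ_sub₂ τ_unif τ_val₁ τ_val₂`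
  of `VData.Good`, VERBATIM;
* `vGood_of_dsetup'`, `vGood_of_dsetup` : `VGood` for the charts of `j = α(x)` in `L ⊇ K` from the
  level below (`DSetup A₀ O₀ x`, `DSetup A₀ O₀ x⁻¹` in `K`) and the two-extension lemma
  (`H64.TwoExt O₀ V₁ V₂`), with the constants of the second component as a hypothesis, resp.
  transported by an automorphism `w` with `V₂ = w⁻¹ V₁`;
* `vTau_of_vGood` : `VTau` for an automorphism `τ` of `L` mapping `A₀` onto itself, fixing `j`,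
  preserving `V₁`, `V₂` and trivial on their residue fields;
* `isDiscreteValuationRing_of_hasScale`, `isDiscreteValuationRing_of_dsetup` : the Gauss ring of
  a `DSetup` is a discrete valuation ring (the instance hypothesis of `H64.TwoExtStatement`).
-/
import Fermat.Agent.S34.H10.SemiLocal

set_option autoImplicit false

open Polynomial

noncomputable section

namespace Fermat.Agent.S34.H10

open Fermat.Agent.S18 Fermat.Agent.S18.H19 Fermat.Agent.S18.H47 Fermat.Agent.S18.H86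
open Fermat.Agent.S34.H7

/-- The two-valuation fields of `H30.VData.Good` (verbatim), and the `ϖ`-adic scales. -/
structure VGood {A₀ F₀ : Type*} [CommRing A₀] [Field F₀] [Algebra A₀ F₀] (ϖ : A₀) (j : F₀)
    (C₁ C₂ : Subalgebra A₀ F₀) (V₁ V₂ : ValuationSubring F₀) : Prop where
  unif₁ : IsUnif ϖ V₁
  unif₂ : IsUnif ϖ V₂
  le₁₁ : ∀ c ∈ C₁, c ∈ V₁
  le₁₂ : ∀ c ∈ C₁, c ∈ V₂
  le₂₁ : ∀ c ∈ C₂, c ∈ V₁
  le₂₂ : ∀ c ∈ C₂, c ∈ V₂
  j_inv₁ : j⁻¹ ∈ V₁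
  j_inv₂ : j⁻¹ ∈ V₂
  sat₁ : ∀ y : F₀, y ∈ V₁ → y ∈ V₂ → ϖ • y ∈ C₁ → y ∈ C₁
  sat₂ : ∀ y : F₀, y ∈ V₁ → y ∈ V₂ → ϖ • y ∈ C₂ → y ∈ C₂
  const₁ : ∀ c₁ ∈ C₁, ∀ c₂ ∈ C₂, c₁ - c₂ ∈ V₁.nonunits →
    ∃ a : A₀, c₁ - algebraMap A₀ F₀ a ∈ V₁.nonunits
  const₂ : ∀ c₁ ∈ C₁, ∀ c₂ ∈ C₂, c₁ - c₂ ∈ V₂.nonunits →
    ∃ a : A₀, c₁ - algebraMap A₀ F₀ a ∈ V₂.nonunits
  /-- the value group of `V₁` is generated by the value of `ϖ` -/
  scale₁ : HasScale ϖ V₁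
  /-- the value group of `V₂` is generated by the value of `ϖ` -/
  scale₂ : HasScale ϖ V₂
  base₁ : ∀ a : A₀, algebraMap A₀ F₀ a ∈ V₁
  base₂ : ∀ a : A₀, algebraMap A₀ F₀ a ∈ V₂

/-- The `τ`-fields of `H30.VData.Good` (verbatim). -/
structure VTau {A₀ F₀ : Type*} [CommRing A₀] [Field F₀] [Algebra A₀ F₀] (ϖ : A₀)
    (C₁ C₂ : Subalgebra A₀ F₀) (V₁ V₂ : ValuationSubring F₀) (τ₀ : F₀ ≃+* F₀) : Prop where
  τ_mem₁ : ∀ c : F₀, τ₀ c ∈ C₁ ↔ c ∈ C₁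
  τ_mem₂ : ∀ c : F₀, τ₀ c ∈ C₂ ↔ c ∈ C₂
  τ_V₁ : ∀ y ∈ V₁, τ₀ y ∈ V₁
  τ_V₂ : ∀ y ∈ V₂, τ₀ y ∈ V₂
  τ_sub₁ : ∀ y ∈ V₁, τ₀ y - y ∈ V₁.nonunits
  τ_sub₂ : ∀ y ∈ V₂, τ₀ y - y ∈ V₂.nonunits
  τ_unif : ∃ e : A₀ˣ, τ₀ (algebraMap A₀ F₀ ϖ) = algebraMap A₀ F₀ (e * ϖ)
  τ_val₁ : ∀ y : F₀, y ≠ 0 → τ₀ y / y ∈ V₁ ∧ y / τ₀ y ∈ V₁
  τ_val₂ : ∀ y : F₀, y ≠ 0 → τ₀ y / y ∈ V₂ ∧ y / τ₀ y ∈ V₂

section Main

variable {A₀ : Type*} [CommRing A₀] [IsDomain A₀] [IsDiscreteValuationRing A₀] [CharZero A₀]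
  {K L : Type*} [Field K] [Field L] [Algebra A₀ K] [Algebra A₀ L] [Algebra K L]
  [IsScalarTower A₀ K L] [FaithfulSMul A₀ K] [Algebra.IsAlgebraic K L]

/-- **(M3), two-valuation form, with the constants of the second component as a hypothesis.**
`K ⊆ L` (in the application `K = F_{M',K₀}`, `L = F_{qM',K₀}` along `α`), `x ∈ K` the
coordinate, `O₀` the Gauss ring of `K` (`DSetup` for `x` and `x⁻¹` over `A₀`, ramified or not),
`V₁`, `V₂` the two valuation subrings of `L` over `O₀` (`TwoExt`). -/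
theorem vGood_of_dsetup' (ϖ : A₀) (hϖ : Irreducible ϖ)
    (O₀ : ValuationSubring K) (x : K) (hS : DSetup A₀ O₀ x) (hS' : DSetup A₀ O₀ x⁻¹)
    (V₁ V₂ : ValuationSubring L)
    (hc₁ : ∀ v : K, algebraMap K L v ∈ V₁ ↔ v ∈ O₀)
    (hc₂ : ∀ v : K, algebraMap K L v ∈ V₂ ↔ v ∈ O₀)
    (hT : Fermat.Agent.S34.H64.TwoExt O₀ V₁ V₂) (hCC₂ : ConstClause A₀ V₂) :
    VGood ϖ (algebraMap K L x) (chart A₀ (algebraMap K L x)) (chart A₀ (algebraMap K L x)⁻¹)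
      V₁ V₂ := by
  classical
  have hπ0 : algebraMap A₀ K ϖ ≠ 0 := H80.ds_algebraMap_ne_zero hS hϖ.ne_zero
  have hπL : algebraMap K L (algebraMap A₀ K ϖ) = algebraMap A₀ L ϖ :=
    (IsScalarTower.algebraMap_apply A₀ K L ϖ).symm
  have hπL0 : algebraMap A₀ L ϖ ≠ 0 := by
    rw [← hπL]
    exact (map_ne_zero_iff _ (algebraMap K L).injective).mpr hπ0
  -- the level below
  have hA : ∀ a : A₀, algebraMap A₀ K a ∈ O₀ := H80.ds_algebraMap_mem hS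
  obtain ⟨hx, hx'⟩ := H72.self_mem_of_dsetup hS
  have hx0 : x ≠ 0 := by
    rintro rfl
    exact hS.transc isAlgebraic_zero
  have hπm : algebraMap A₀ K ϖ ∈ O₀.nonunits := H80.ds_unif_mem_nonunits hϖ hS
  have hsc₀ : HasScale ϖ O₀ := hasScale_of_dsetup hϖ hS
  have hgen₀ : ∀ a ∈ O₀.nonunits, a / algebraMap A₀ K ϖ ∈ O₀ :=
    fun a ha => div_mem_of_hasScale hsc₀ (hA ϖ) ha
  -- the top level
  have hj0 : algebraMap K L x ≠ 0 := (map_ne_zero_iff _ (algebraMap K L).injective).mpr hx0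
  have hA₁ : ∀ a : A₀, algebraMap A₀ L a ∈ V₁ := fun a => by
    rw [IsScalarTower.algebraMap_apply A₀ K L]
    exact (hc₁ _).mpr (hA a)
  have hA₂ : ∀ a : A₀, algebraMap A₀ L a ∈ V₂ := fun a => by
    rw [IsScalarTower.algebraMap_apply A₀ K L]
    exact (hc₂ _).mpr (hA a)
  have hjV₁ : algebraMap K L x ∈ V₁ := (hc₁ x).mpr hx
  have hjV₂ : algebraMap K L x ∈ V₂ := (hc₂ x).mpr hx
  have hjV₁' : (algebraMap K L x)⁻¹ ∈ V₁ := by
    rw [← map_inv₀]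
    exact (hc₁ _).mpr hx'
  have hjV₂' : (algebraMap K L x)⁻¹ ∈ V₂ := by
    rw [← map_inv₀]
    exact (hc₂ _).mpr hx'
  have hπV₁ : algebraMap A₀ L ϖ ∈ V₁.nonunits := by
    rw [← hπL]
    exact (algebraMap_mem_nonunits_iff O₀ V₁ hc₁ _).mpr hπm
  have hπV₂ : algebraMap A₀ L ϖ ∈ V₂.nonunits := by
    rw [← hπL]
    exact (algebraMap_mem_nonunits_iff O₀ V₂ hc₂ _).mpr hπm
  have hgen₁ : ∀ g ∈ V₁.nonunits, g / algebraMap A₀ L ϖ ∈ V₁ := by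
    intro g hg
    rw [← hπL]
    exact hT.unif₁ _ hπm hgen₀ g hg
  have hgen₂ : ∀ g ∈ V₂.nonunits, g / algebraMap A₀ L ϖ ∈ V₂ := by
    intro g hg
    rw [← hπL]
    exact hT.unif₂ _ hπm hgen₀ g hg
  have hunif : ∀ V : ValuationSubring L, algebraMap A₀ L ϖ ∈ V.nonunits →
      (∀ g ∈ V.nonunits, g / algebraMap A₀ L ϖ ∈ V) → IsUnif ϖ V := by
    intro V hπV hgen y
    constructor
    · intro hy
      refine ⟨y / algebraMap A₀ L ϖ, hgen y hy, ?_⟩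
      rw [Algebra.smul_def, mul_div_cancel₀ _ hπL0]
    · rintro ⟨d, hd, rfl⟩
      rw [Algebra.smul_def]
      exact H80.ds_mul_mem_nonunits hπV hd
  -- saturation
  haveI : IsIntegrallyClosed ↥(chart A₀ x) := H95.chart_isIntegrallyClosed' x
  haveI : IsIntegrallyClosed ↥(chart A₀ x⁻¹) := H95.chart_isIntegrallyClosed' x⁻¹
  have hint : ∀ y : L, y ∈ V₁ → y ∈ V₂ → IsIntegral ↥O₀ y :=
    fun y h1 h2 => (hT.integral_iff y).mpr ⟨h1, h2⟩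
  have hsat₂ : ∀ y : L, y ∈ V₁ → y ∈ V₂ → ϖ • y ∈ chart A₀ (algebraMap K L x)⁻¹ →
      y ∈ chart A₀ (algebraMap K L x)⁻¹ := by
    have h := chart_sat_top ϖ hπ0 x⁻¹ (H95.chart_frac O₀ x⁻¹ hS') O₀ hA
      (H6.chart_sat ϖ hϖ O₀ x⁻¹ hS') V₁ V₂ hint
    rwa [map_inv₀] at h
  -- constants on the first component
  have hCC₁ : ConstClause A₀ V₁ := constClause_of_res O₀ V₁ hc₁ hT.res₁ hA hS.const
  exact
    { unif₁ := hunif V₁ hπV₁ hgen₁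
      unif₂ := hunif V₂ hπV₂ hgen₂
      le₁₁ := H72.chart_subset_valuationSubring V₁ hA₁ hjV₁
      le₁₂ := H72.chart_subset_valuationSubring V₂ hA₂ hjV₂
      le₂₁ := H72.chart_subset_valuationSubring V₁ hA₁ hjV₁'
      le₂₂ := H72.chart_subset_valuationSubring V₂ hA₂ hjV₂'
      j_inv₁ := hjV₁'
      j_inv₂ := hjV₂'
      sat₁ := chart_sat_top ϖ hπ0 x (H95.chart_frac O₀ x hS) O₀ hA (H6.chart_sat ϖ hϖ O₀ x hS)
        V₁ V₂ hint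
      sat₂ := hsat₂
      const₁ := hk_of_const V₁ hA₁ (algebraMap K L x) hjV₁ hjV₁' hj0 hCC₁
      const₂ := hk_of_const V₂ hA₂ (algebraMap K L x) hjV₂ hjV₂' hj0 hCC₂
      scale₁ := hasScale_top hπ0 O₀ V₁ hc₁ hsc₀ hπV₁ hgen₁
      scale₂ := hasScale_top hπ0 O₀ V₂ hc₂ hsc₀ hπV₂ hgen₂
      base₁ := hA₁
      base₂ := hA₂ }

/-- **(M3), two-valuation form**, the second component being the transport of the first one by
an automorphism `w` of `L` over `A₀` (`V₂ = w⁻¹ V₁`, the Atkin–Lehner involution). -/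
theorem vGood_of_dsetup (ϖ : A₀) (hϖ : Irreducible ϖ)
    (O₀ : ValuationSubring K) (x : K) (hS : DSetup A₀ O₀ x) (hS' : DSetup A₀ O₀ x⁻¹)
    (V₁ V₂ : ValuationSubring L)
    (hc₁ : ∀ v : K, algebraMap K L v ∈ V₁ ↔ v ∈ O₀)
    (hc₂ : ∀ v : K, algebraMap K L v ∈ V₂ ↔ v ∈ O₀)
    (hT : Fermat.Agent.S34.H64.TwoExt O₀ V₁ V₂)
    (w : L ≃+* L) (hwA : ∀ a : A₀, w (algebraMap A₀ L a) = algebraMap A₀ L a)
    (hwV : ∀ g : L, g ∈ V₂ ↔ w g ∈ V₁) :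
    VGood ϖ (algebraMap K L x) (chart A₀ (algebraMap K L x)) (chart A₀ (algebraMap K L x)⁻¹)
      V₁ V₂ := by
  have hCC₁ : ConstClause A₀ V₁ :=
    constClause_of_res O₀ V₁ hc₁ hT.res₁ (H80.ds_algebraMap_mem hS) hS.const
  have hCC₂ : ConstClause A₀ V₂ := by
    have e : V₂ = V₁.comap (w : L →+* L) := by
      ext g
      rw [ValuationSubring.mem_comap]
      exact hwV g
    rw [e]
    exact constClause_comap V₁ w hwA hCC₁
  exact vGood_of_dsetup' ϖ hϖ O₀ x hS hS' V₁ V₂ hc₁ hc₂ hT hCC₂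

end Main

section Tau

variable {A₀ : Type*} [CommRing A₀] [IsDomain A₀] [IsDiscreteValuationRing A₀]
  {F : Type*} [Field F] [Algebra A₀ F] [FaithfulSMul A₀ F]

/-- **The `τ`-fields of `VData.Good`** for the charts of `j`, from `VGood` (only its scale and
base fields are used): `τ` an automorphism of `F` mapping `A₀` onto itself, fixing `j`,
preserving `V₁`, `V₂` and acting trivially on their residue fields. -/
theorem vTau_of_scale (ϖ : A₀) (hϖ : Irreducible ϖ) (j : F) (V₁ V₂ : ValuationSubring F)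
    (hA₁ : ∀ a : A₀, algebraMap A₀ F a ∈ V₁) (hA₂ : ∀ a : A₀, algebraMap A₀ F a ∈ V₂)
    (hsc₁ : HasScale ϖ V₁) (hsc₂ : HasScale ϖ V₂)
    (τ : F ≃+* F) (hτA : ∀ a : A₀, ∃ a' : A₀, τ (algebraMap A₀ F a) = algebraMap A₀ F a')
    (hτA' : ∀ a : A₀, ∃ a' : A₀, τ.symm (algebraMap A₀ F a) = algebraMap A₀ F a')
    (hτj : τ j = j)
    (hτV₁ : ∀ y : F, τ y ∈ V₁ ↔ y ∈ V₁) (hτV₂ : ∀ y : F, τ y ∈ V₂ ↔ y ∈ V₂)
    (hτ1₁ : ∀ y ∈ V₁, τ y - y ∈ V₁.nonunits) (hτ1₂ : ∀ y ∈ V₂, τ y - y ∈ V₂.nonunits) :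
    VTau ϖ (chart A₀ j) (chart A₀ j⁻¹) V₁ V₂ τ := by
  have hπ0 : algebraMap A₀ F ϖ ≠ 0 := fun h0 =>
    hϖ.ne_zero (FaithfulSMul.algebraMap_injective A₀ F (by rw [h0, map_zero]))
  have hτϖ := exists_unit_mul_of_semilinear ϖ hϖ τ hτA hτA'
  have hτj' : τ j⁻¹ = j⁻¹ := by rw [map_inv₀, hτj]
  exact
    { τ_mem₁ := chart_equiv_mem_iff τ hτA hτA' j hτj
      τ_mem₂ := chart_equiv_mem_iff τ hτA hτA' j⁻¹ hτj'
      τ_V₁ := fun y hy => (hτV₁ y).mpr hy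
      τ_V₂ := fun y hy => (hτV₂ y).mpr hy
      τ_sub₁ := hτ1₁
      τ_sub₂ := hτ1₂
      τ_unif := hτϖ
      τ_val₁ := val_of_hasScale V₁ hA₁ hsc₁ hπ0 τ hτV₁ hτϖ
      τ_val₂ := val_of_hasScale V₂ hA₂ hsc₂ hπ0 τ hτV₂ hτϖ }

/-- The `τ`-fields of `VData.Good` from `VGood`. -/
theorem vTau_of_vGood (ϖ : A₀) (hϖ : Irreducible ϖ) (j : F) (C₁ C₂ : Subalgebra A₀ F)
    (V₁ V₂ : ValuationSubring F) (hG : VGood ϖ j C₁ C₂ V₁ V₂)
    (τ : F ≃+* F) (hτA : ∀ a : A₀, ∃ a' : A₀, τ (algebraMap A₀ F a) = algebraMap A₀ F a')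
    (hτA' : ∀ a : A₀, ∃ a' : A₀, τ.symm (algebraMap A₀ F a) = algebraMap A₀ F a')
    (hτj : τ j = j)
    (hτV₁ : ∀ y : F, τ y ∈ V₁ ↔ y ∈ V₁) (hτV₂ : ∀ y : F, τ y ∈ V₂ ↔ y ∈ V₂)
    (hτ1₁ : ∀ y ∈ V₁, τ y - y ∈ V₁.nonunits) (hτ1₂ : ∀ y ∈ V₂, τ y - y ∈ V₂.nonunits) :
    VTau ϖ (chart A₀ j) (chart A₀ j⁻¹) V₁ V₂ τ :=
  vTau_of_scale ϖ hϖ j V₁ V₂ hG.base₁ hG.base₂ hG.scale₁ hG.scale₂ τ hτA hτA' hτj hτV₁ hτV₂
    hτ1₁ hτ1₂

end Tau

section DVR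

variable {A₀ : Type*} [CommRing A₀] {F : Type*} [Field F] [Algebra A₀ F]

/-- A valuation subring with the `ϖ`-adic scale, `ϖ` a nonzero element of its maximal ideal, is
a discrete valuation ring. -/
theorem isDiscreteValuationRing_of_hasScale {ϖ : A₀} (V : ValuationSubring F)
    (hsc : HasScale ϖ V) (hπ : algebraMap A₀ F ϖ ∈ V.nonunits)
    (hπ0 : algebraMap A₀ F ϖ ≠ 0) : IsDiscreteValuationRing ↥V := by
  have hπV : algebraMap A₀ F ϖ ∈ V := ValuationSubring.nonunits_subset hπ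
  have hπinv : (algebraMap A₀ F ϖ)⁻¹ ∉ V :=
    ((ValuationSubring.mem_nonunits_iff_or _).1 hπ).resolve_left hπ0
  set p : ↥V := ⟨algebraMap A₀ F ϖ, hπV⟩ with hp
  have hp0 : p ≠ 0 := fun h => hπ0 (congrArg Subtype.val h)
  have hpu : ¬ IsUnit p := by
    intro hu
    obtain ⟨q, hq⟩ := hu.exists_right_inv
    have h1 : algebraMap A₀ F ϖ * (q : F) = 1 := congrArg Subtype.val hq
    apply hπinv
    rw [inv_eq_of_mul_eq_one_right h1]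
    exact q.2
  -- every nonzero element is a unit times a power of `p`
  have key : ∀ y : ↥V, y ≠ 0 → ∃ n : ℕ, Associated (p ^ n) y := by
    intro y hy
    have hy0 : (y : F) ≠ 0 := fun h => hy (Subtype.ext h)
    obtain ⟨n, hn⟩ := hsc (y : F) hy0
    have hn0 : 0 ≤ n := by
      by_contra hlt
      obtain ⟨k, hk⟩ := Int.eq_ofNat_of_zero_le (by omega : 0 ≤ -n - 1)
      have hnk : n = -((k : ℤ) + 1) := by omega
      apply hπinv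
      have e : (algebraMap A₀ F ϖ)⁻¹
          = ((y : F) / algebraMap A₀ F ϖ ^ n)⁻¹ * ((y : F) * algebraMap A₀ F ϖ ^ k) := by
        rw [hnk, zpow_neg, zpow_add_one₀ hπ0, zpow_natCast]
        field_simp
      rw [e]
      exact V.mul_mem _ _ hn.2 (V.mul_mem _ _ y.2 (pow_mem hπV k))
    obtain ⟨k, hk⟩ := Int.eq_ofNat_of_zero_le hn0
    rw [hk, zpow_natCast] at hn
    have hπk : algebraMap A₀ F ϖ ^ k ≠ 0 := pow_ne_zero k hπ0
    have hε0 : (y : F) / algebraMap A₀ F ϖ ^ k ≠ 0 := div_ne_zero hy0 hπk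
    refine ⟨k, ⟨⟨⟨_, hn.1⟩, ⟨_, hn.2⟩, Subtype.ext (mul_inv_cancel₀ hε0),
      Subtype.ext (inv_mul_cancel₀ hε0)⟩, ?_⟩⟩
    apply Subtype.ext
    change algebraMap A₀ F ϖ ^ k * ((y : F) / algebraMap A₀ F ϖ ^ k) = (y : F)
    rw [mul_div_cancel₀ _ hπk]
  have hirr : Irreducible p := by
    rw [irreducible_iff]
    refine ⟨hpu, fun a b hab => ?_⟩
    have ha0 : a ≠ 0 := by
      rintro rfl
      exact hp0 (by rw [hab, zero_mul])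
    have hb0 : b ≠ 0 := by
      rintro rfl
      exact hp0 (by rw [hab, mul_zero])
    obtain ⟨na, ua, hua⟩ := key a ha0
    obtain ⟨nb, ub, hub⟩ := key b hb0
    rcases Nat.eq_zero_or_pos na with h | h
    · left
      rw [← hua, h, pow_zero, one_mul]
      exact ua.isUnit
    rcases Nat.eq_zero_or_pos nb with h' | h'
    · right
      rw [← hub, h', pow_zero, one_mul]
      exact ub.isUnit
    exfalso
    apply hpu
    obtain ⟨ka, rfl⟩ : ∃ ka, na = ka + 1 := ⟨na - 1, by omega⟩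
    obtain ⟨kb, rfl⟩ : ∃ kb, nb = kb + 1 := ⟨nb - 1, by omega⟩
    have h1 : p * 1 = p * (p * (p ^ ka * p ^ kb * ((ua : ↥V) * (ub : ↥V)))) := by
      rw [mul_one]
      conv_lhs => rw [hab, ← hua, ← hub]
      ring
    have h2 := mul_left_cancel₀ hp0 h1
    exact IsUnit.of_mul_eq_one _ h2.symm
  exact IsDiscreteValuationRing.ofHasUnitMulPowIrreducibleFactorization
    ⟨p, hirr, fun {y} hy => key y hy⟩

/-- **The Gauss ring of a `DSetup` is a discrete valuation ring** (the instance hypothesis of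
`H64.TwoExtStatement` at the discrete level). -/
theorem isDiscreteValuationRing_of_dsetup [IsDomain A₀] [IsDiscreteValuationRing A₀] {ϖ : A₀}
    (hϖ : Irreducible ϖ) {O₀ : ValuationSubring F} {x : F} (hS : DSetup A₀ O₀ x) :
    IsDiscreteValuationRing ↥O₀ :=
  isDiscreteValuationRing_of_hasScale O₀ (hasScale_of_dsetup hϖ hS)
    (H80.ds_unif_mem_nonunits hϖ hS) (H80.ds_algebraMap_ne_zero hS hϖ.ne_zero)

/-- The two valuation subrings of `VGood` are discrete valuation rings. -/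
theorem VGood.isDiscreteValuationRing [FaithfulSMul A₀ F] [IsDomain A₀] {ϖ : A₀}
    (hϖ0 : ϖ ≠ 0) {j : F} {C₁ C₂ : Subalgebra A₀ F} {V₁ V₂ : ValuationSubring F}
    (hG : VGood ϖ j C₁ C₂ V₁ V₂) :
    IsDiscreteValuationRing ↥V₁ ∧ IsDiscreteValuationRing ↥V₂ := by
  have hπ0 : algebraMap A₀ F ϖ ≠ 0 := fun h0 =>
    hϖ0 (FaithfulSMul.algebraMap_injective A₀ F (by rw [h0, map_zero]))
  have hϖ₁ : algebraMap A₀ F ϖ ∈ V₁.nonunits :=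
    (hG.unif₁ _).2 ⟨1, V₁.one_mem, by rw [Algebra.smul_def, mul_one]⟩
  have hϖ₂ : algebraMap A₀ F ϖ ∈ V₂.nonunits :=
    (hG.unif₂ _).2 ⟨1, V₂.one_mem, by rw [Algebra.smul_def, mul_one]⟩
  exact ⟨isDiscreteValuationRing_of_hasScale V₁ hG.scale₁ hϖ₁ hπ0,
    isDiscreteValuationRing_of_hasScale V₂ hG.scale₂ hϖ₂ hπ0⟩

end DVR

end Fermat.Agent.S34.H10
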